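/-
MLT / FlatOrd (helper8), part 4: **function models of a flat matrix representation at all finite
levels, in matrix form**.

`r : G_ℚ →* M₂(A)`, `ofMat r hr` flat at `p`, `J` an ideal with `A ⧸ J` finite, `𝔓 | p`: a
`D_𝔓`-stable model, stable under the unit scalars, on `Fin 2 → A ⧸ J` with the action by the matrices
`(r σ).map (Ideal.Quotient.mk J)` (helper2's `FFModel.exists_of_isFlatAt` + quotient along
`V ⧸ J V → (A ⧸ J)²` + compositum over the scalars).
-/
import Mathlib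
import Fermat.Agent.Lib.TW.Flat.FromFlat
import Fermat.Agent.Lib.TW.Flat.ModelQuot
import Fermat.Agent.Lib.TW.Flat.Stable
import Fermat.Agent.Lib.TW.LF.Unr
import Fermat.Agent.Lib.S53.MatInterface
import Fermat.Agent.Lib.Alpha.S32.Flat

set_option autoImplicit false
set_option linter.unusedSectionVars false
set_option linter.unusedVariables false
set_option linter.style.haveILetI false
set_option synthInstance.maxHeartbeats 400000

open Fermat.Agent.TW Fermat.Agent.S05Lib Fermat.Agent.S53Lib IsLocalRing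

noncomputable section

namespace Fermat.Agent.MLT

local notation "Qb" => AlgebraicClosure ℚ
local notation "GQ" => (AlgebraicClosure ℚ ≃ₐ[ℚ] AlgebraicClosure ℚ)

section Act

variable {R : Type*} [CommRing R]

/-- the action of `G_ℚ` on `R²` through a family of matrices -/
def mltfoAct (r : GQ → Matrix (Fin 2) (Fin 2) R) (σ : GQ) : (Fin 2 → R) →+ (Fin 2 → R) :=
  (Matrix.mulVecLin (r σ)).toAddMonoidHom

@[simp] theorem mltfoAct_apply (r : GQ → Matrix (Fin 2) (Fin 2) R) (σ : GQ) (u : Fin 2 → R) :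
    mltfoAct r σ u = (r σ).mulVec u := rfl

/-- multiplication by a unit on the points -/
def mltfoScal (u : Rˣ) : (Fin 2 → R) →+ (Fin 2 → R) :=
  DistribSMul.toAddMonoidHom (Fin 2 → R) (u : R)

@[simp] theorem mltfoScal_apply (u : Rˣ) (x : Fin 2 → R) : mltfoScal u x = (u : R) • x := rfl

theorem mltfoScal_act (r : GQ → Matrix (Fin 2) (Fin 2) R) (u : Rˣ) (σ : GQ) (x : Fin 2 → R) :
    mltfoScal u (mltfoAct r σ x) = mltfoAct r σ (mltfoScal u x) := by
  rw [mltfoScal_apply, mltfoScal_apply, mltfoAct_apply, mltfoAct_apply, Matrix.mulVec_smul]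

end Act

section Model

variable {A : Type} [CommRing A] [IsLocalRing A]

/-- the projection `V ⧸ J V → (A ⧸ J)²` for `V = A²` -/
def mltfoProj (J : Ideal A) :
    ((Fin 2 → A) ⧸ J • (⊤ : Submodule A (Fin 2 → A))) →ₗ[A] (Fin 2 → A ⧸ J) :=
  Submodule.liftQ _ (LinearMap.pi fun i => (Algebra.linearMap A (A ⧸ J)).comp (LinearMap.proj i))
    (by
      rw [Submodule.smul_le]
      intro a ha v _
      rw [LinearMap.mem_ker]
      funext i
      simp only [LinearMap.pi_apply, LinearMap.comp_apply, LinearMap.proj_apply, Pi.smul_apply,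
        smul_eq_mul, Algebra.linearMap_apply, map_mul, Ideal.Quotient.algebraMap_eq,
        Ideal.Quotient.eq_zero_iff_mem.mpr ha, zero_mul, Pi.zero_apply])

theorem mltfoProj_mk (J : Ideal A) (v : Fin 2 → A) (i : Fin 2) :
    mltfoProj J (Submodule.Quotient.mk v) i = Ideal.Quotient.mk J (v i) := rfl

theorem mltfoProj_surjective (J : Ideal A) : Function.Surjective (mltfoProj J) := by
  intro y
  choose v hv using fun i => Ideal.Quotient.mk_surjective (y i)
  refine ⟨Submodule.Quotient.mk v, ?_⟩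
  funext i
  rw [mltfoProj_mk, hv]

/-- **function models at all finite levels, in matrix form** -/
theorem mltfo_exists_model (𝔓 : FFPlace) (r : GQ →* Matrix (Fin 2) (Fin 2) A) (hr : MatCts A r)
    (hfl : (ofMat r hr).IsFlatAt 𝔓.p) (J : Ideal A) [Finite (A ⧸ J)] :
    ∃ M : FFModel 𝔓 (Fin 2 → A ⧸ J) (mltfoAct fun σ => (r σ).map (Ideal.Quotient.mk J)),
      M.DStable ∧ ∀ u : (A ⧸ J)ˣ, ∀ f ∈ M.carrier, (fun x => f ((u : A ⧸ J) • x)) ∈ M.carrier := by
  have hU := 𝔓.lf_unr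
  obtain ⟨M₀, hM₀⟩ := FFModel.exists_of_isFlatAt 𝔓 (ofMat r hr) hfl J
  haveI : Finite ((ofMat r hr).V ⧸ J • (⊤ : Submodule A (ofMat r hr).V)) :=
    Fermat.Agent.Alpha.alps_finite_quot (ofMat r hr) J
  let π : ((ofMat r hr).V ⧸ J • (⊤ : Submodule A (ofMat r hr).V)) →+ (Fin 2 → A ⧸ J) :=
    (mltfoProj J).toAddMonoidHom
  have hπ : Function.Surjective π := mltfoProj_surjective J
  have hact : ∀ (σ : GQ) (x : (ofMat r hr).V ⧸ J • (⊤ : Submodule A (ofMat r hr).V)),
      π (((ofMat r hr).levelAction J σ).toAddMonoidHom x) =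
        mltfoAct (fun σ => (r σ).map (Ideal.Quotient.mk J)) σ (π x) := by
    intro σ x
    obtain ⟨v, rfl⟩ := Submodule.Quotient.mk_surjective _ x
    funext i
    show mltfoProj J (Submodule.Quotient.mk ((r σ).mulVec v)) i =
      ((r σ).map (Ideal.Quotient.mk J)).mulVec (mltfoProj J (Submodule.Quotient.mk v)) i
    rw [mltfoProj_mk, RingHom.map_mulVec]
    rfl
  let M₁ := M₀.quot hU π hπ (fun σ _ x => hact σ x)
  have hM₁ : M₁.DStable := hM₀.quot hU π hπ (fun σ _ x => hact σ x) (fun σ _ x => hact σ x)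
  haveI : Finite (Fin 2 → A ⧸ J) := Pi.finite
  -- the compositum over the unit scalars
  let Φ : Set ((Fin 2 → A ⧸ J) →+ (Fin 2 → A ⧸ J)) := Set.range (mltfoScal (R := A ⧸ J))
  have hid : AddMonoidHom.id (Fin 2 → A ⧸ J) ∈ Φ := by
    refine ⟨1, DFunLike.ext _ _ (fun x => ?_)⟩
    rw [mltfoScal_apply, Units.val_one, one_smul]
    rfl
  have hcommAll : ∀ φ ∈ Φ, ∀ (σ : GQ) (x : Fin 2 → A ⧸ J),
      φ (mltfoAct (fun σ => (r σ).map (Ideal.Quotient.mk J)) σ x) =
        mltfoAct (fun σ => (r σ).map (Ideal.Quotient.mk J)) σ (φ x) := by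
    rintro _ ⟨u, rfl⟩ σ x
    exact mltfoScal_act _ u σ x
  have hmul : ∀ φ ∈ Φ, ∀ ψ ∈ Φ, φ.comp ψ ∈ Φ := by
    rintro _ ⟨u, rfl⟩ _ ⟨u', rfl⟩
    refine ⟨u * u', DFunLike.ext _ _ (fun x => ?_)⟩
    rw [AddMonoidHom.comp_apply, mltfoScal_apply, mltfoScal_apply, mltfoScal_apply, Units.val_mul,
      mul_smul]
  refine ⟨M₁.sup Φ hid (fun φ hφ σ _ x => hcommAll φ hφ σ x),
    hM₁.sup Φ hid (fun φ hφ σ _ x => hcommAll φ hφ σ x) (fun φ hφ σ _ x => hcommAll φ hφ σ x),
    fun u f hf => ?_⟩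
  exact M₁.sup_stable Φ hid (fun φ hφ σ _ x => hcommAll φ hφ σ x) hmul ⟨u, rfl⟩ hf

end Model

end Fermat.Agent.MLT
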