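/-
MLT / FlatOrd (helper8), part 5: **(G1a) at a finite level: a flat lift of a reducible residual
representation is ordinary** (the connected part of a function model is a free line).

`R` a finite ring, `res : R → k` onto a finite field with local kernel (`res a ≠ 0 → IsUnit a`),
`r : G_ℚ → M₂(R)` multiplicative, `M` a `D_𝔓`-stable, unit-scalar-stable function model on `R²`.  If
`r mod ker res` has a `D_𝔓`-stable line and determinant `ω ≠ 1` on the inertia group, then the
connected part `C = {x | ord x > 0}` of `M` is `R c₀` for a unimodular `c₀`, it is `D_𝔓`-stable and the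
inertia group acts trivially on `R² / C`:
* `C ∋ c₀ := (r ι₀ − 1) x ∉ (ker res) R²` (`ω ι₀ ≠ 1`); complete to a basis `c₀, b₁`;
* if `β b₁ ∈ C`, `β ≠ 0`, some multiple `t = s β ≠ 0` is killed by `ker res` (`mltfo_exists_socle`);
  the model restricted to `t R² ≅ k²` (`FFModel.comap` along `mltfoIota`) has a LINE as connected
  part (`tk_flat_line`), which contains `t c₀` and `t b₁`: contradiction.
-/
import Mathlib
import Fermat.Agent.Lib.MLT.FlatOrd.Model
import Fermat.Agent.Lib.TW.Ord.LineStructure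
import Fermat.Agent.Lib.TW.Flat.Char

set_option autoImplicit false
set_option linter.unusedSectionVars false
set_option linter.unusedVariables false
set_option linter.style.haveILetI false
set_option synthInstance.maxHeartbeats 400000
set_option maxHeartbeats 1000000

open Fermat.Agent.TW Fermat.Agent.S05Lib Matrix

noncomputable section

namespace Fermat.Agent.MLT

local notation "Qb" => AlgebraicClosure ℚ
local notation "GQ" => (AlgebraicClosure ℚ ≃ₐ[ℚ] AlgebraicClosure ℚ)

section Socle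

variable {R : Type} [CommRing R] [Finite R] {k : Type} [Field k] (res : R →+* k)
  (hunit : ∀ a : R, res a ≠ 0 → IsUnit a)

include hunit in
/-- every non-zero element of a finite local ring has a non-zero multiple killed by the maximal
ideal -/
theorem mltfo_exists_socle {β : R} (hβ : β ≠ 0) :
    ∃ s t : R, t = s * β ∧ t ≠ 0 ∧ ∀ m : R, res m = 0 → m * t = 0 := by
  classical
  haveI : Fintype R := Fintype.ofFinite R
  let S : Finset R := Finset.univ.filter fun t => t ≠ 0 ∧ ∃ s, t = s * β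
  have hS : S.Nonempty := ⟨β, by
    simp only [S, Finset.mem_filter, Finset.mem_univ, true_and]
    exact ⟨hβ, 1, (one_mul β).symm⟩⟩
  let I : R → Finset R := fun t => Finset.univ.filter fun x => ∃ a, x = a * t
  obtain ⟨t, htS, hmin⟩ := S.exists_min_image (fun t => (I t).card) hS
  simp only [S, Finset.mem_filter, Finset.mem_univ, true_and] at htS
  obtain ⟨ht0, s, hts⟩ := htS
  refine ⟨s, t, hts, ht0, fun m hm => ?_⟩
  by_contra hmt
  have hmtS : m * t ∈ S := by
    simp only [S, Finset.mem_filter, Finset.mem_univ, true_and]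
    exact ⟨hmt, m * s, by rw [hts]; ring⟩
  have hsub : I (m * t) ⊆ I t := by
    intro x hx
    simp only [I, Finset.mem_filter, Finset.mem_univ, true_and] at hx ⊢
    obtain ⟨a, rfl⟩ := hx
    exact ⟨a * m, by ring⟩
  have heq : I (m * t) = I t := Finset.eq_of_subset_of_card_le hsub (hmin _ hmtS)
  have htI : t ∈ I (m * t) := by
    rw [heq]
    simp only [I, Finset.mem_filter, Finset.mem_univ, true_and]
    exact ⟨1, (one_mul t).symm⟩
  simp only [I, Finset.mem_filter, Finset.mem_univ, true_and] at htI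
  obtain ⟨a, ha⟩ := htI
  have h1 : (1 - a * m) * t = 0 := by
    rw [sub_mul, one_mul, sub_eq_zero, mul_assoc]
    exact ha
  have h2 : IsUnit (1 - a * m) := by
    apply hunit
    rw [map_sub, map_one, map_mul, hm, mul_zero, sub_zero]
    exact one_ne_zero
  exact ht0 ((h2.mul_right_eq_zero).mp h1)

end Socle

section Iota

variable {R : Type} [CommRing R] {k : Type} [Field k] (res : R →+* k)
  (hres : Function.Surjective res) (hunit : ∀ a : R, res a ≠ 0 → IsUnit a)
  (t : R) (ht : ∀ m : R, res m = 0 → m * t = 0)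

/-- multiplication by a socle element, as a map `k → R` -/
def mltfoTau : k →+ R where
  toFun x := Function.surjInv hres x * t
  map_zero' := by
    apply ht
    rw [Function.surjInv_eq hres]
  map_add' x y := by
    rw [← add_mul, ← sub_eq_zero, ← sub_mul]
    apply ht
    rw [map_sub, map_add, Function.surjInv_eq hres, Function.surjInv_eq hres,
      Function.surjInv_eq hres, sub_self]

theorem mltfoTau_res (a : R) : mltfoTau res hres t ht (res a) = a * t := by
  show Function.surjInv hres (res a) * t = a * t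
  rw [← sub_eq_zero, ← sub_mul]
  apply ht
  rw [map_sub, Function.surjInv_eq hres, sub_self]

theorem mltfoTau_mul (c : R) (x : k) :
    mltfoTau res hres t ht (res c * x) = c * mltfoTau res hres t ht x := by
  obtain ⟨a, rfl⟩ := hres x
  rw [← map_mul, mltfoTau_res, mltfoTau_res, mul_assoc]

include hunit in
theorem mltfoTau_injective (ht0 : t ≠ 0) : Function.Injective (mltfoTau res hres t ht) := by
  rw [injective_iff_map_eq_zero]
  intro x hx
  obtain ⟨a, rfl⟩ := hres x
  rw [mltfoTau_res] at hx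
  by_contra hne
  exact ht0 (((hunit a hne).mul_right_eq_zero).mp hx)

/-- `k² → R²`, `v ↦ t · (a lift of v)` -/
def mltfoIota : (Fin 2 → k) →+ (Fin 2 → R) :=
  (mltfoTau res hres t ht).compLeft (Fin 2)

theorem mltfoIota_apply (v : Fin 2 → k) (i : Fin 2) :
    mltfoIota res hres t ht v i = mltfoTau res hres t ht (v i) := rfl

theorem mltfoIota_res (x : Fin 2 → R) :
    mltfoIota res hres t ht (fun i => res (x i)) = t • x := by
  funext i
  rw [mltfoIota_apply, mltfoTau_res, Pi.smul_apply, smul_eq_mul, mul_comm]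

include hunit in
theorem mltfoIota_injective (ht0 : t ≠ 0) : Function.Injective (mltfoIota res hres t ht) := by
  intro v w h
  funext i
  exact mltfoTau_injective res hres hunit t ht ht0 (congrFun h i)

/-- equivariance of `mltfoIota` -/
theorem mltfoIota_mulVec (B : Matrix (Fin 2) (Fin 2) R) (v : Fin 2 → k) :
    mltfoIota res hres t ht ((B.map res) *ᵥ v) = B *ᵥ mltfoIota res hres t ht v := by
  funext i
  rw [mltfoIota_apply]
  simp only [Matrix.mulVec, dotProduct, Fin.sum_univ_two, Matrix.map_apply, map_add,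
    mltfoTau_mul, mltfoIota_apply]

end Iota

section Core

variable {𝔓 : FFPlace} {R : Type} [CommRing R] [Finite R] {k : Type} [Field k] [Finite k]
  [Algebra (ZMod 𝔓.p) k] (res : R →+* k) (hres : Function.Surjective res)
  (hunit : ∀ a : R, res a ≠ 0 → IsUnit a)

include hres hunit in
/-- **(G1a) at a finite level**: the connected part of the model is a free line `R c₀`, stable
under `D_𝔓`, and the inertia group acts trivially on the quotient -/
theorem mltfo_line_of_model
    (r : GQ → Matrix (Fin 2) (Fin 2) R) (hr1 : r 1 = 1) (hrmul : ∀ σ τ, r (σ * τ) = r σ * r τ)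
    (M : FFModel 𝔓 (Fin 2 → R) (mltfoAct r)) (hM : M.DStable)
    (hscal : ∀ u : Rˣ, ∀ f ∈ M.carrier, (fun x => f ((u : R) • x)) ∈ M.carrier)
    (hred : ∃ v₁ : Fin 2 → k, v₁ ≠ 0 ∧ ∀ σ ∈ 𝔓.D, ∃ x : k, (r σ).map res *ᵥ v₁ = x • v₁)
    {ζ : Qb} (hζ : IsPrimitiveRoot ζ 𝔓.p) (ω : GQ → ZMod 𝔓.p)
    (hω : ∀ σ ∈ 𝔓.I, σ ζ = lfZPow ζ (ω σ))
    (hdet : ∀ σ ∈ 𝔓.I, res (r σ).det = algebraMap (ZMod 𝔓.p) k (ω σ))
    {φ : GQ} (hφD : φ ∈ 𝔓.D) (hφ : ∀ x : Qb, 𝔓.v.Ge x 0 → 𝔓.v.Gt (φ x - x ^ 𝔓.p) 0)
    {ι₀ : GQ} (hι₀ : ι₀ ∈ 𝔓.I) (hι₀ω : ω ι₀ ≠ 1) :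
    ∃ c₀ b₁ : Fin 2 → R, IsUnit (c₀ 0 * b₁ 1 - c₀ 1 * b₁ 0) ∧
      (∀ σ ∈ 𝔓.D, ∃ x : R, r σ *ᵥ c₀ = x • c₀) ∧
      ∀ τ ∈ 𝔓.I, ∀ u : Fin 2 → R, ∃ c : R, r τ *ᵥ u - u = c • c₀ := by
  classical
  haveI : Finite (Fin 2 → R) := Pi.finite
  -- the residual matrices
  set Abar : GQ → Matrix (Fin 2) (Fin 2) k := fun σ => (r σ).map res with hAbar
  have hA1 : Abar 1 = 1 := by
    show (r 1).map res = 1
    rw [hr1]
    exact Matrix.map_one res (map_zero res) (map_one res)
  have hAmul : ∀ σ τ, Abar (σ * τ) = Abar σ * Abar τ := by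
    intro σ τ
    show (r (σ * τ)).map res = (r σ).map res * (r τ).map res
    rw [hrmul, Matrix.map_mul]
  have hdetA : ∀ σ ∈ 𝔓.I, (Abar σ).det = algebraMap (ZMod 𝔓.p) k (ω σ) := by
    intro σ hσ
    rw [← hdet σ hσ]
    show ((r σ).map res).det = res (r σ).det
    rw [← RingHom.mapMatrix_apply, ← RingHom.map_det]
  -- stability of the connected part under the scalars
  have hUst : ∀ c : R, IsUnit c → ∀ x, M.OrdGT x 0 → M.OrdGT (c • x) 0 := by
    rintro _ ⟨u, rfl⟩ x hx f hf hf0
    exact hx _ (hscal u f hf) (by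
      show f ((u : R) • (0 : Fin 2 → R)) = 0
      rw [smul_zero]; exact hf0)
  have hRst : ∀ (c : R) (x : Fin 2 → R), M.OrdGT x 0 → M.OrdGT (c • x) 0 := by
    intro c x hx
    by_cases hc : res c = 0
    · have h1 : c • x = (1 + c) • x - x := by rw [add_smul, one_smul]; abel
      rw [h1]
      refine FFModel.OrdGT.sub (hUst _ (hunit _ ?_) x hx) hx
      rw [map_add, map_one, hc, add_zero]
      exact one_ne_zero
    · exact hUst c (hunit c hc) x hx
  have hDst : ∀ σ ∈ 𝔓.D, ∀ x, M.OrdGT x 0 → M.OrdGT (r σ *ᵥ x) 0 :=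
    fun σ hσ x hx => hM.ordGT hσ hx
  have hItriv : ∀ τ ∈ 𝔓.I, ∀ u, M.OrdGT (r τ *ᵥ u - u) 0 := fun τ hτ u => M.ordGT_act_sub u hτ
  -- Step 1: a connected point which is non-zero in the residual representation
  have hdetι : (Abar ι₀).det ≠ 1 := by
    rw [hdetA ι₀ hι₀]
    intro h
    apply hι₀ω
    exact (algebraMap (ZMod 𝔓.p) k).injective (by rw [h, map_one])
  obtain ⟨xbar, hxbar⟩ : ∃ xbar : Fin 2 → k, Abar ι₀ *ᵥ xbar ≠ xbar := by
    by_contra hcon
    push Not at hcon
    apply hdetι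
    have h1 : Abar ι₀ = 1 := by
      rw [Matrix.ext_iff_mulVec]
      intro u
      rw [Matrix.one_mulVec]
      exact hcon u
    rw [h1, Matrix.det_one]
  set x₀ : Fin 2 → R := fun i => Function.surjInv hres (xbar i) with hx₀
  have hx₀res : (fun i => res (x₀ i)) = xbar := by
    funext i
    exact Function.surjInv_eq hres (xbar i)
  set c₀ : Fin 2 → R := r ι₀ *ᵥ x₀ - x₀ with hc₀
  have hc₀gt : M.OrdGT c₀ 0 := hItriv ι₀ hι₀ x₀
  set cbar : Fin 2 → k := fun i => res (c₀ i) with hcbar
  have hcbar_eq : cbar = Abar ι₀ *ᵥ xbar - xbar := by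
    funext i
    show res ((r ι₀ *ᵥ x₀ - x₀) i) = _
    rw [Pi.sub_apply, map_sub, RingHom.map_mulVec, Pi.sub_apply]
    show ((r ι₀).map res *ᵥ (fun i => res (x₀ i))) i - res (x₀ i) = _
    rw [hx₀res]
    exact congrArg _ (congrFun hx₀res i)
  have hcbar0 : cbar ≠ 0 := by
    rw [hcbar_eq]
    exact sub_ne_zero.mpr hxbar
  -- Step 2: a complement
  obtain ⟨wbar, hwbar⟩ := tk_exists_dual hcbar0
  set b₁ : Fin 2 → R := fun i => Function.surjInv hres (wbar i) with hb₁
  have hb₁res : (fun i => res (b₁ i)) = wbar := by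
    funext i
    exact Function.surjInv_eq hres (wbar i)
  set d : R := c₀ 0 * b₁ 1 - c₀ 1 * b₁ 0 with hd
  have hdres : res d = 1 := by
    rw [← hwbar]
    simp only [hd, map_sub, map_mul, twPerp, dotProduct, Fin.sum_univ_two, Matrix.cons_val_zero,
      Matrix.cons_val_one]
    have e0 : res (b₁ 0) = wbar 0 := congrFun hb₁res 0
    have e1 : res (b₁ 1) = wbar 1 := congrFun hb₁res 1
    rw [e0, e1]
    show res (c₀ 0) * wbar 1 - res (c₀ 1) * wbar 0 = -(res (c₀ 1)) * wbar 0 + res (c₀ 0) * wbar 1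
    ring
  have hdu : IsUnit d := hunit d (by rw [hdres]; exact one_ne_zero)
  obtain ⟨di, hdi⟩ := hdu.exists_right_inv
  -- the coordinates
  have hdecomp : ∀ x : Fin 2 → R,
      x = (di * (x 0 * b₁ 1 - x 1 * b₁ 0)) • c₀ + (di * (c₀ 0 * x 1 - c₀ 1 * x 0)) • b₁ := by
    intro x
    funext i
    fin_cases i
    · simp only [Fin.zero_eta, Fin.isValue, Pi.add_apply, Pi.smul_apply, smul_eq_mul]
      linear_combination (-(x 0)) * hdi
    · simp only [Fin.mk_one, Fin.isValue, Pi.add_apply, Pi.smul_apply, smul_eq_mul]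
      linear_combination (-(x 1)) * hdi
  -- Step 3: the connected part is `R c₀`
  have hkey : ∀ x : Fin 2 → R, M.OrdGT x 0 → c₀ 0 * x 1 - c₀ 1 * x 0 = 0 := by
    intro x hx
    by_contra hne
    set β : R := di * (c₀ 0 * x 1 - c₀ 1 * x 0) with hβ
    have hβ0 : β ≠ 0 := by
      intro h0
      apply hne
      have : d * β = c₀ 0 * x 1 - c₀ 1 * x 0 := by
        rw [hβ, ← mul_assoc, hdi, one_mul]
      rw [← this, h0, mul_zero]
    have hβb : M.OrdGT (β • b₁) 0 := by
      have h1 : β • b₁ = x - (di * (x 0 * b₁ 1 - x 1 * b₁ 0)) • c₀ := by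
        have e := hdecomp x
        rw [eq_sub_iff_add_eq, add_comm]
        exact e.symm
      rw [h1]
      exact FFModel.OrdGT.sub hx (hRst _ _ hc₀gt)
    obtain ⟨s, t, hts, ht0, ht⟩ := mltfo_exists_socle res hunit hβ0
    have htb : M.OrdGT (t • b₁) 0 := by
      rw [hts, mul_smul]
      exact hRst s _ hβb
    have htc : M.OrdGT (t • c₀) 0 := hRst t _ hc₀gt
    -- the restricted model
    have hιinj := mltfoIota_injective res hres hunit t ht ht0
    have hιact : ∀ (σ : GQ) (y : Fin 2 → k),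
        mltfoIota res hres t ht (tkMatAct Abar σ y) = mltfoAct r σ (mltfoIota res hres t ht y) := by
      intro σ y
      exact mltfoIota_mulVec res hres t ht (r σ) y
    let N : FFModel 𝔓 (Fin 2 → k) (tkMatAct Abar) :=
      M.comap (mltfoIota res hres t ht) hιinj (fun σ _ y => hιact σ y)
    have hN : N.DStable :=
      hM.comap (mltfoIota res hres t ht) hιinj (fun σ _ y => hιact σ y) (fun σ _ y => hιact σ y)
    have hNscal : ∀ u : k, u ≠ 0 → ∀ f ∈ N.carrier, (fun x => f (u • x)) ∈ N.carrier := by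
      rintro u hu _ ⟨g, hg, rfl⟩
      obtain ⟨a, rfl⟩ := hres u
      obtain ⟨U, hUa⟩ := hunit a hu
      refine ⟨_, hscal U g hg, ?_⟩
      funext y
      show g ((U : R) • mltfoIota res hres t ht y) = g (mltfoIota res hres t ht (res a • y))
      congr 1
      funext i
      rw [Pi.smul_apply, smul_eq_mul, mltfoIota_apply, mltfoIota_apply, Pi.smul_apply, smul_eq_mul,
        mltfoTau_mul, hUa]
    obtain ⟨v₀, hv, hline⟩ := tk_flat_line hA1 hAmul N hN hNscal hred hζ ω hω hdetA hφD hφ hι₀ hι₀ω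
    have hNw : N.OrdGT wbar 0 := by
      rw [FFModel.ordGT_comap_iff, ← hb₁res, mltfoIota_res]
      exact htb
    have hNc : N.OrdGT cbar 0 := by
      rw [FFModel.ordGT_comap_iff, hcbar, mltfoIota_res]
      exact htc
    obtain ⟨a, ha⟩ := (hline _).1 hNw
    obtain ⟨a', ha'⟩ := (hline _).1 hNc
    have h0 : twPerp cbar ⬝ᵥ wbar = 0 := by
      rw [ha, ha']
      simp only [twPerp, dotProduct, Fin.sum_univ_two, Matrix.cons_val_zero, Matrix.cons_val_one,
        Pi.smul_apply, smul_eq_mul]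
      ring
    rw [hwbar] at h0
    exact one_ne_zero h0
  have hspan : ∀ x : Fin 2 → R, M.OrdGT x 0 → ∃ c : R, x = c • c₀ := by
    intro x hx
    refine ⟨di * (x 0 * b₁ 1 - x 1 * b₁ 0), ?_⟩
    have e := hdecomp x
    rw [hkey x hx, mul_zero, zero_smul, add_zero] at e
    exact e
  refine ⟨c₀, b₁, hdu, fun σ hσ => ?_, fun τ hτ u => ?_⟩
  · obtain ⟨c, hc⟩ := hspan _ (hDst σ hσ c₀ hc₀gt)
    exact ⟨c, hc⟩
  · obtain ⟨c, hc⟩ := hspan _ (hItriv τ hτ u)
    exact ⟨c, hc⟩

end Core

end Fermat.Agent.MLT
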