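/-
MLT / FlatOrd (helper8), part 6: **(G1a) flat ⇒ ordinary** for a lift of a residual representation
with a `D_P`-stable line at every place `P ∣ p` (`p ≥ 3`, cyclotomic determinant).

* `mltfo_setup` : the auxiliary data of `mltfo_line_of_model` at an arbitrary place over `p`
  (primitive `p`-th root of unity, cyclotomic character, a Frobenius element, an inertia element on
  which the cyclotomic character is non-trivial);
* `mltfoRes` : the reduction `A ⧸ J → A ⧸ 𝔪`;
* `mltfo_tri_of_line` : a unimodular `c₀` with `r σ c₀ ∈ R c₀` (`σ ∈ D`) and `(r τ - 1) R² ⊆ R c₀`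
  (`τ ∈ I`) gives the identities `mltoX1..4`;
* `mltfo_EOrd_level` : the matrix condition `mltoEOrd p` for `r mod J`, `A ⧸ J` finite;
* **`mltfo_isOrdinaryAt_ofMat`**, **`mltfo_isOrdinaryAt_of_isFlatAt`** : the limit over
  `J = 𝔪 ^ (n + 1)` (helper7's `mltoEOrd_good`), `A` Noetherian with finite residue field.
-/
import Mathlib
import Fermat.Agent.Lib.MLT.FlatOrd.Core
import Fermat.Agent.Lib.MLT.TWO.DefCondOrdBridge
import Fermat.Agent.Lib.TW.Kum.Final

set_option autoImplicit false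
set_option linter.unusedSectionVars false
set_option linter.unusedVariables false
set_option linter.style.haveILetI false
set_option synthInstance.maxHeartbeats 400000
set_option maxHeartbeats 1000000

open Fermat.Agent.TW Fermat.Agent.S05Lib Fermat.Agent.S53Lib IsLocalRing ExtCitation Matrix

noncomputable section

namespace Fermat.Agent.MLT

local notation "Qb" => AlgebraicClosure ℚ
local notation "GQ" => (AlgebraicClosure ℚ ≃ₐ[ℚ] AlgebraicClosure ℚ)

/-! ### the auxiliary data at an arbitrary place over `p` -/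

theorem mltfo_setup (p : ℕ) [hp : Fact p.Prime] (h3 : 3 ≤ p) (P : ValuationSubring Qb)
    (hP : P.LiesOverPrime p) :
    ∃ (ζ : Qb) (φ ι₀ : GQ), IsPrimitiveRoot ζ p ∧
      (∀ σ : GQ, σ ζ = lfZPow ζ ((cycloChar p σ : (ZMod p)ˣ) : ZMod p)) ∧
      φ ∈ P.decompositionSubgroup ℚ ∧
      (∀ x : Qb, (FFPlace.mk P p hp.out hP).v.Ge x 0 →
        (FFPlace.mk P p hp.out hP).v.Gt (φ x - x ^ p) 0) ∧
      ι₀ ∈ P.inertiaSubgroupIn ℚ ∧ ((cycloChar p ι₀ : (ZMod p)ˣ) : ZMod p) ≠ 1 := by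
  haveI : NeZero p := ⟨hp.out.ne_zero⟩
  obtain ⟨ζ, hζ⟩ := HasEnoughRootsOfUnity.exists_primitiveRoot Qb p
  obtain ⟨φ, hφ⟩ := Fermat.Agent.Lib.Helper6.exists_isFrobeniusAt P hp.out hP
  obtain ⟨ι₀, hι₀, hι₀ω⟩ := tw_exists_inertia_cycloChar_ne_one p h3 P hP
  refine ⟨ζ, φ, ι₀, hζ, ?_, hφ.mem_decompositionSubgroup, ?_, hι₀, ?_⟩
  · intro σ
    have h1 := Fermat.Agent.CFT.S14.apply_eq_pow_cycloExp p σ hζ.pow_eq_one
    rw [h1]
    rfl
  · intro x hx
    have hxP : x ∈ P := ((FFPlace.mk P p hp.out hP).mem_P_iff x).2 hx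
    have h1 := Fermat.Agent.FrobDensity.valuation_frobenius_sub_pow_lt_one hφ hxP
    exact ((FFPlace.mk P p hp.out hP).tk_valuation_lt_one_iff _).1 h1
  · intro h
    apply hι₀ω
    exact Units.ext h

/-! ### the reduction `A ⧸ J → A ⧸ 𝔪` -/

section Res

variable {A : Type} [CommRing A] [IsLocalRing A]

/-- the reduction `A ⧸ J → A ⧸ 𝔪` -/
def mltfoRes (J : Ideal A) (hJ : J ≤ maximalIdeal A) : A ⧸ J →+* ResidueField A :=
  Ideal.Quotient.lift J (residue A) (fun a ha => (residue_eq_zero_iff a).2 (hJ ha))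

theorem mltfoRes_mk (J : Ideal A) (hJ : J ≤ maximalIdeal A) (a : A) :
    mltfoRes J hJ (Ideal.Quotient.mk J a) = residue A a := rfl

theorem mltfoRes_surjective (J : Ideal A) (hJ : J ≤ maximalIdeal A) :
    Function.Surjective (mltfoRes J hJ) := by
  intro x
  obtain ⟨a, rfl⟩ := residue_surjective x
  exact ⟨Ideal.Quotient.mk J a, rfl⟩

theorem mltfoRes_isUnit (J : Ideal A) (hJ : J ≤ maximalIdeal A) (a : A ⧸ J)
    (ha : mltfoRes J hJ a ≠ 0) : IsUnit a := by
  obtain ⟨a', rfl⟩ := Ideal.Quotient.mk_surjective a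
  rw [mltfoRes_mk] at ha
  have h1 : IsUnit a' := by
    by_contra hnu
    exact ha ((residue_eq_zero_iff a').2 ((mem_maximalIdeal a').2 hnu))
  exact h1.map (Ideal.Quotient.mk J)

theorem mltfoRes_map (J : Ideal A) (hJ : J ≤ maximalIdeal A) (M : Matrix (Fin 2) (Fin 2) A) :
    (M.map (Ideal.Quotient.mk J)).map (mltfoRes J hJ) = M.map (residue A) := by
  ext i j
  rfl

end Res

/-! ### from the line to the identities -/

section Tri

variable {R : Type} [CommRing R]

/-- the change of basis `(c₀, b₁)` and its inverse -/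
theorem mltfo_tri_of_line {c₀ b₁ : Fin 2 → R} (hd : IsUnit (c₀ 0 * b₁ 1 - c₀ 1 * b₁ 0)) :
    ∃ u v : Matrix (Fin 2) (Fin 2) R, u * v = 1 ∧ v * u = 1 ∧
      (∀ (M : Matrix (Fin 2) (Fin 2) R) (x : R), M *ᵥ c₀ = x • c₀ → (u * M * v) 1 0 = 0) ∧
      (∀ (M : Matrix (Fin 2) (Fin 2) R) (c : R), M *ᵥ b₁ - b₁ = c • c₀ → (u * M * v) 1 1 = 1) := by
  obtain ⟨di, hdi⟩ := hd.exists_right_inv
  set v : Matrix (Fin 2) (Fin 2) R := !![c₀ 0, b₁ 0; c₀ 1, b₁ 1] with hv
  set u : Matrix (Fin 2) (Fin 2) R := !![di * b₁ 1, -(di * b₁ 0); -(di * c₀ 1), di * c₀ 0] with hu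
  have huv : u * v = 1 := by
    ext i j
    fin_cases i <;> fin_cases j
    · simp only [hu, hv, Fin.zero_eta, Fin.isValue, Matrix.mul_apply, Fin.sum_univ_two,
        Matrix.of_apply, Matrix.cons_val', Matrix.cons_val_zero, Matrix.cons_val_fin_one,
        Matrix.cons_val_one, Matrix.one_apply_eq]
      linear_combination hdi
    · simp only [hu, hv, Fin.zero_eta, Fin.isValue, Fin.mk_one, Matrix.mul_apply, Fin.sum_univ_two,
        Matrix.of_apply, Matrix.cons_val', Matrix.cons_val_zero, Matrix.cons_val_fin_one,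
        Matrix.cons_val_one, ne_eq, zero_ne_one, not_false_eq_true, Matrix.one_apply_ne]
      ring
    · simp only [hu, hv, Fin.zero_eta, Fin.isValue, Fin.mk_one, Matrix.mul_apply, Fin.sum_univ_two,
        Matrix.of_apply, Matrix.cons_val', Matrix.cons_val_zero, Matrix.cons_val_fin_one,
        Matrix.cons_val_one, ne_eq, one_ne_zero, not_false_eq_true, Matrix.one_apply_ne]
      ring
    · simp only [hu, hv, Fin.mk_one, Fin.isValue, Matrix.mul_apply, Fin.sum_univ_two,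
        Matrix.of_apply, Matrix.cons_val', Matrix.cons_val_zero, Matrix.cons_val_fin_one,
        Matrix.cons_val_one, Matrix.one_apply_eq]
      linear_combination hdi
  have hvu : v * u = 1 := by
    ext i j
    fin_cases i <;> fin_cases j
    · simp only [hu, hv, Fin.zero_eta, Fin.isValue, Matrix.mul_apply, Fin.sum_univ_two,
        Matrix.of_apply, Matrix.cons_val', Matrix.cons_val_zero, Matrix.cons_val_fin_one,
        Matrix.cons_val_one, Matrix.one_apply_eq]
      linear_combination hdi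
    · simp only [hu, hv, Fin.zero_eta, Fin.isValue, Fin.mk_one, Matrix.mul_apply, Fin.sum_univ_two,
        Matrix.of_apply, Matrix.cons_val', Matrix.cons_val_zero, Matrix.cons_val_fin_one,
        Matrix.cons_val_one, ne_eq, zero_ne_one, not_false_eq_true, Matrix.one_apply_ne]
      ring
    · simp only [hu, hv, Fin.zero_eta, Fin.isValue, Fin.mk_one, Matrix.mul_apply, Fin.sum_univ_two,
        Matrix.of_apply, Matrix.cons_val', Matrix.cons_val_zero, Matrix.cons_val_fin_one,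
        Matrix.cons_val_one, ne_eq, one_ne_zero, not_false_eq_true, Matrix.one_apply_ne]
      ring
    · simp only [hu, hv, Fin.mk_one, Fin.isValue, Matrix.mul_apply, Fin.sum_univ_two,
        Matrix.of_apply, Matrix.cons_val', Matrix.cons_val_zero, Matrix.cons_val_fin_one,
        Matrix.cons_val_one, Matrix.one_apply_eq]
      linear_combination hdi
  refine ⟨u, v, huv, hvu, fun M x hx => ?_, fun M c hc => ?_⟩
  · have e0 : M 0 0 * c₀ 0 + M 0 1 * c₀ 1 = x * c₀ 0 := by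
      have := congrFun hx 0
      simpa [Matrix.mulVec, dotProduct, Fin.sum_univ_two] using this
    have e1 : M 1 0 * c₀ 0 + M 1 1 * c₀ 1 = x * c₀ 1 := by
      have := congrFun hx 1
      simpa [Matrix.mulVec, dotProduct, Fin.sum_univ_two] using this
    simp only [hu, hv, Fin.isValue, Matrix.mul_apply, Fin.sum_univ_two, Matrix.of_apply,
      Matrix.cons_val', Matrix.cons_val_zero, Matrix.cons_val_fin_one, Matrix.cons_val_one]
    linear_combination (-(di * c₀ 1)) * e0 + (di * c₀ 0) * e1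
  · have e0 : M 0 0 * b₁ 0 + M 0 1 * b₁ 1 - b₁ 0 = c * c₀ 0 := by
      have := congrFun hc 0
      simpa [Matrix.mulVec, dotProduct, Fin.sum_univ_two] using this
    have e1 : M 1 0 * b₁ 0 + M 1 1 * b₁ 1 - b₁ 1 = c * c₀ 1 := by
      have := congrFun hc 1
      simpa [Matrix.mulVec, dotProduct, Fin.sum_univ_two] using this
    simp only [hu, hv, Fin.isValue, Matrix.mul_apply, Fin.sum_univ_two, Matrix.of_apply,
      Matrix.cons_val', Matrix.cons_val_zero, Matrix.cons_val_fin_one, Matrix.cons_val_one]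
    linear_combination (-(di * c₀ 1)) * e0 + (di * c₀ 0) * e1 + hdi

/-- a unimodular line `R c₀`, stable under `D`, modulo which `I` acts trivially, gives the
identities of `mltoEOrd` -/
theorem mltfo_X_of_line (r : GQ → Matrix (Fin 2) (Fin 2) R) (D I : Set GQ) (hID : I ⊆ D)
    {c₀ b₁ : Fin 2 → R} (hd : IsUnit (c₀ 0 * b₁ 1 - c₀ 1 * b₁ 0))
    (hD : ∀ σ ∈ D, ∃ x : R, r σ *ᵥ c₀ = x • c₀)
    (hI : ∀ τ ∈ I, ∀ w : Fin 2 → R, ∃ c : R, r τ *ᵥ w - w = c • c₀)
    {σ₀ : GQ} (hσ₀ : σ₀ ∈ I) :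
    mltoX1 (r σ₀) = 0 ∧ mltoX2 (r σ₀) = 0 ∧ (∀ σ ∈ D, mltoX3 (r σ₀) (r σ) = 0) ∧
      ∀ σ ∈ I, mltoX4 (r σ₀) (r σ) = 0 := by
  obtain ⟨u, v, huv, hvu, h10, h11⟩ := mltfo_tri_of_line hd
  have hconj : ∀ σ, r σ = v * (u * r σ * v) * u := by
    intro σ
    calc r σ = (v * u) * r σ * (v * u) := by rw [hvu, one_mul, mul_one]
      _ = v * (u * r σ * v) * u := by simp only [mul_assoc]
  have triD : ∀ σ ∈ D, (u * r σ * v) 1 0 = 0 := by
    intro σ hσ
    obtain ⟨x, hx⟩ := hD σ hσ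
    exact h10 _ x hx
  have triI : ∀ σ ∈ I, (u * r σ * v) 1 1 = 1 := by
    intro σ hσ
    obtain ⟨c, hc⟩ := hI σ hσ b₁
    exact h11 _ c hc
  have t10 := triD σ₀ (hID hσ₀)
  have t11 := triI σ₀ hσ₀
  refine ⟨?_, ?_, fun σ hσ => ?_, fun σ hσ => ?_⟩
  · rw [hconj σ₀, mltoX1_conj v u hvu huv, mltoX1_of_tri t10 t11, mul_zero, zero_mul]
  · rw [hconj σ₀, mltoX2_conj v u hvu huv, mltoX2_of_tri t10 t11]
  · rw [hconj σ₀, hconj σ, mltoX3_conj v u hvu huv, mltoX3_of_tri t10 t11 (triD σ hσ), mul_zero,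
      zero_mul]
  · rw [hconj σ₀, hconj σ, mltoX4_conj v u hvu huv,
      mltoX4_of_tri t10 t11 (triD σ (hID hσ)) (triI σ hσ), mul_zero, zero_mul]

end Tri

/-! ### the finite levels -/

section Level

variable {A : Type} [CommRing A] [IsLocalRing A]

/-- the residue field of a local ring in which `p` is not a unit is an `𝔽_p`-algebra -/
@[instance_reducible] def mltfoAlgebra (p : ℕ) [Fact p.Prime] (hpA : (p : A) ∈ maximalIdeal A) :
    Algebra (ZMod p) (ResidueField A) :=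
  haveI : CharP (ResidueField A) p := by
    have h0 : ((p : ℕ) : ResidueField A) = 0 := by
      have h1 : residue A (p : A) = 0 := (residue_eq_zero_iff _).2 hpA
      rwa [map_natCast] at h1
    exact (CharP.charP_iff_prime_eq_zero (Fact.out : p.Prime)).2 h0
  ZMod.algebra _ p

/-- **(G1a) at the finite levels**: the matrix condition `mltoEOrd p` for `r mod J` -/
theorem mltfo_EOrd_level (p : ℕ) [hp : Fact p.Prime] (h3 : 3 ≤ p)
    (r : GQ →* Matrix (Fin 2) (Fin 2) A) (hr : MatCts A r)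
    (hdet : (ofMat r hr).DetIsCyclotomic p) (hfl : (ofMat r hr).IsFlatAt p)
    (hbar : ∀ P : ValuationSubring Qb, P.LiesOverPrime p →
      ∃ v₁ : Fin 2 → ResidueField A, v₁ ≠ 0 ∧ ∀ σ ∈ P.decompositionSubgroup ℚ,
        ∃ x : ResidueField A, (r σ).map (residue A) *ᵥ v₁ = x • v₁)
    (J : Ideal A) (hJ : J ≤ maximalIdeal A) [Finite (A ⧸ J)] [IsLocalRing (A ⧸ J)] :
    mltoEOrd p (fun σ => (r σ).map (Ideal.Quotient.mk J)) := by
  intro P hP σ₀ hσ₀ _
  haveI : NeZero p := ⟨hp.out.ne_zero⟩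
  set 𝔓 : FFPlace := FFPlace.mk P p hp.out hP with h𝔓
  letI : Algebra (ZMod 𝔓.p) (ResidueField A) := mltfoAlgebra p hdet.1
  haveI : Finite (ResidueField A) := Finite.of_surjective _ (mltfoRes_surjective J hJ)
  obtain ⟨M, hM, hscal⟩ := mltfo_exists_model 𝔓 r hr hfl J
  obtain ⟨ζ, φ, ι₀, hζ, hω, hφD, hφ, hι₀, hι₀ω⟩ := mltfo_setup p h3 P hP
  obtain ⟨v₁, hv₁, hline⟩ := hbar P hP
  have hr1 : (fun σ => (r σ).map (Ideal.Quotient.mk J)) 1 = 1 := by
    show (r 1).map (Ideal.Quotient.mk J) = 1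
    rw [map_one]
    exact Matrix.map_one _ (map_zero _) (map_one _)
  have hrmul : ∀ σ τ, (fun σ => (r σ).map (Ideal.Quotient.mk J)) (σ * τ) =
      (fun σ => (r σ).map (Ideal.Quotient.mk J)) σ *
        (fun σ => (r σ).map (Ideal.Quotient.mk J)) τ := by
    intro σ τ
    show (r (σ * τ)).map (Ideal.Quotient.mk J) = _
    rw [map_mul, Matrix.map_mul]
  have hdetI : ∀ σ ∈ 𝔓.I, mltfoRes J hJ ((r σ).map (Ideal.Quotient.mk J)).det =
      algebraMap (ZMod 𝔓.p) (ResidueField A) ((cycloChar p σ : (ZMod p)ˣ) : ZMod p) := by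
    intro σ _
    have h1 := hdet.2 1 σ (cycloExp p σ) (fun μ hμ => by
      rw [pow_one] at hμ
      exact Fermat.Agent.CFT.S14.apply_eq_pow_cycloExp p σ hμ)
    rw [det_ofMat, pow_one] at h1
    have h2 : (r σ).det - ((cycloExp p σ : ℕ) : A) ∈ maximalIdeal A :=
      (Ideal.span_singleton_le_iff_mem _).2 hdet.1 h1
    have h3' : residue A (r σ).det = ((cycloExp p σ : ℕ) : ResidueField A) := by
      have := (residue_eq_zero_iff _).2 h2
      rw [map_sub, sub_eq_zero, map_natCast] at this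
      exact this
    have h4 : ((r σ).map (Ideal.Quotient.mk J)).det = Ideal.Quotient.mk J (r σ).det := by
      rw [← RingHom.mapMatrix_apply, ← RingHom.map_det]
    rw [h4, mltfoRes_mk, h3', coe_cycloChar]
    exact (map_natCast (algebraMap (ZMod p) (ResidueField A)) _).symm
  have hred : ∃ v₁ : Fin 2 → ResidueField A, v₁ ≠ 0 ∧ ∀ σ ∈ 𝔓.D, ∃ x : ResidueField A,
      ((fun σ => (r σ).map (Ideal.Quotient.mk J)) σ).map (mltfoRes J hJ) *ᵥ v₁ = x • v₁ := by
    refine ⟨v₁, hv₁, fun σ hσ => ?_⟩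
    obtain ⟨x, hx⟩ := hline σ hσ
    refine ⟨x, ?_⟩
    show ((r σ).map (Ideal.Quotient.mk J)).map (mltfoRes J hJ) *ᵥ v₁ = x • v₁
    rw [mltfoRes_map]
    exact hx
  obtain ⟨c₀, b₁, hd, hD, hI⟩ := mltfo_line_of_model (𝔓 := 𝔓) (mltfoRes J hJ)
    (mltfoRes_surjective J hJ) (mltfoRes_isUnit J hJ)
    (fun σ => (r σ).map (Ideal.Quotient.mk J)) hr1 hrmul M hM hscal hred hζ
    (fun σ => ((cycloChar p σ : (ZMod p)ˣ) : ZMod p)) (fun σ _ => hω σ) hdetI hφD hφ hι₀ hι₀ω
  exact mltfo_X_of_line (fun σ => (r σ).map (Ideal.Quotient.mk J))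
    (P.decompositionSubgroup ℚ : Set GQ) (P.inertiaSubgroupIn ℚ : Set GQ)
    (fun σ hσ => 𝔓.I_le_D hσ) hd hD hI hσ₀

end Level

/-! ### the limit -/

section Limit

variable {A : Type} [CommRing A] [IsLocalRing A] [IsNoetherianRing A]

/-- **(G1a), matrix form**: a flat lift with cyclotomic determinant of a residual representation with
a `D_P`-stable line at every `P ∣ p` is ordinary (`p ≥ 3`, `A` Noetherian with finite residue
field) -/
theorem mltfo_isOrdinaryAt_ofMat (p : ℕ) [hp : Fact p.Prime] (h3 : 3 ≤ p)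
    (hres : Finite (ResidueField A))
    (r : GQ →* Matrix (Fin 2) (Fin 2) A) (hr : MatCts A r)
    (hdet : (ofMat r hr).DetIsCyclotomic p) (hfl : (ofMat r hr).IsFlatAt p)
    (hbar : ∀ P : ValuationSubring Qb, P.LiesOverPrime p →
      ∃ v₁ : Fin 2 → ResidueField A, v₁ ≠ 0 ∧ ∀ σ ∈ P.decompositionSubgroup ℚ,
        ∃ x : ResidueField A, (r σ).map (residue A) *ᵥ v₁ = x • v₁) :
    (ofMat r hr).IsOrdinaryAt p := by
  refine mlto_isOrdinaryAt_of_EOrd p h3 r hr hdet ?_
  refine (mltoEOrd_good p).reflect_quot (fun σ => r σ) (fun n => ?_)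
  haveI : Finite (A ⧸ maximalIdeal A) := hres
  haveI : Finite (A ⧸ maximalIdeal A ^ (n + 1)) :=
    Ideal.finite_quotient_pow (IsNoetherian.noetherian (maximalIdeal A)) (n + 1)
  exact mltfo_EOrd_level p h3 r hr hdet hfl hbar (maximalIdeal A ^ (n + 1))
    (Ideal.pow_le_self (Nat.succ_ne_zero n))

end Limit

end Fermat.Agent.MLT
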