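/-
MLT / FlatOrd (helper8), part 7: **(G1a) flat ⇒ ordinary for deformations** of a residual
representation `ρbar` of ordinary type.

* `mltfo_isOrdinaryAt_of_residual` : `ρ` over a Noetherian local `𝒪`-algebra `A` with finite residue
  field, `ρ mod 𝔪 ≅ ρbar ⊗ k_A`, `ρbar` ordinary at `p`, `det ρ` cyclotomic, `ρ` flat at `p`
  ⟹ `ρ` ordinary at `p` (`p ≥ 3`);
* `mltfo_finite_residueField` : the residue field of a local `𝒪`-algebra whose residue field is
  generated by `𝒪` is finite when the one of `𝒪` is.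
-/
import Mathlib
import Fermat.Agent.Lib.MLT.FlatOrd.FlatOrdinary

set_option autoImplicit false
set_option linter.unusedSectionVars false
set_option linter.unusedVariables false
set_option linter.style.haveILetI false
set_option synthInstance.maxHeartbeats 400000
set_option maxHeartbeats 1000000

open Fermat.Agent.TW Fermat.Agent.S05Lib Fermat.Agent.S53Lib IsLocalRing ExtCitation Matrix

noncomputable section

namespace Fermat.Agent.MLT

local notation "Qb" => AlgebraicClosure ℚ
local notation "GQ" => (AlgebraicClosure ℚ ≃ₐ[ℚ] AlgebraicClosure ℚ)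

section Rep

variable {𝒪 : Type} [CommRing 𝒪] [IsLocalRing 𝒪]
variable {A : Type} [CommRing A] [IsLocalRing A] [Algebra 𝒪 A] [IsLocalHom (algebraMap 𝒪 A)]

/-- the residue field of `A` is finite when it is generated by a ring with finite residue field -/
theorem mltfo_finite_residueField [Finite (ResidueField 𝒪)]
    (hsurj : Function.Surjective (residue A ∘ algebraMap 𝒪 A)) : Finite (ResidueField A) := by
  refine Finite.of_surjective (ResidueField.map (algebraMap 𝒪 A)) ?_
  intro x
  obtain ⟨a, rfl⟩ := hsurj x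
  exact ⟨residue 𝒪 a, rfl⟩

/-- an ordinary line of `ρbar` at `P`, in the coordinates of a strict lift -/
theorem mltfo_hbar_of_strictLift (p : ℕ) (ρbar : ResidualGaloisRep (ResidueField 𝒪))
    (hbar : (GaloisRepAdic.ofResidualGaloisRep ρbar).IsOrdinaryAt p)
    (b : Module.Basis (Fin 2) (ResidueField 𝒪) ρbar.V)
    (r : GQ →* Matrix (Fin 2) (Fin 2) A) (hlift : IsStrictLift (𝒪 := 𝒪) (resMat ρbar b) r)
    (P : ValuationSubring Qb) (hP : P.LiesOverPrime p) :
    ∃ v₁ : Fin 2 → ResidueField A, v₁ ≠ 0 ∧ ∀ σ ∈ P.decompositionSubgroup ℚ,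
      ∃ x : ResidueField A, (r σ).map (residue A) *ᵥ v₁ = x • v₁ := by
  obtain ⟨L, ⟨b', hb'⟩, hD, -⟩ := hbar P hP
  set φ : ResidueField 𝒪 →+* ResidueField A := ResidueField.map (algebraMap 𝒪 A) with hφ
  have hv₀L : b' 0 ∈ L := by rw [hb']; exact Submodule.mem_span_singleton_self _
  set v₀ : ρbar.V := b' 0 with hv₀
  have hv₀0 : v₀ ≠ 0 := b'.ne_zero 0
  set w : Fin 2 → ResidueField 𝒪 := fun i => b.repr v₀ i with hw
  refine ⟨fun i => φ (w i), ?_, fun σ hσ => ?_⟩
  · intro h0
    apply hv₀0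
    have h1 : b.repr v₀ = 0 := by
      ext i
      have h2 := congrFun h0 i
      rw [Pi.zero_apply] at h2
      rw [Finsupp.zero_apply]
      exact φ.injective (by rw [h2, map_zero])
    exact (LinearEquiv.map_eq_zero_iff _).1 h1
  · have h1 : (GaloisRepAdic.ofResidualGaloisRep ρbar).ρ σ v₀ ∈ L := hD σ hσ v₀ hv₀L
    rw [hb'] at h1
    obtain ⟨x, hx⟩ := Submodule.mem_span_singleton.1 h1
    refine ⟨φ x, ?_⟩
    rw [hlift σ]
    have h2 : resMat ρbar b σ *ᵥ w = x • w := by
      rw [resMat_apply]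
      have h3 := LinearMap.toMatrix_mulVec_repr b b (ρbar.ρ σ) v₀
      have h4 : ρbar.ρ σ v₀ = x • v₀ := hx.symm
      rw [h4, map_smul] at h3
      funext i
      have h5 := congrFun h3 i
      rw [h5]
      rfl
    funext i
    have h6 := RingHom.map_mulVec φ (resMat ρbar b σ) w i
    rw [h2, Pi.smul_apply, smul_eq_mul, map_mul] at h6
    rw [Pi.smul_apply, smul_eq_mul, h6]
    rfl

/-- **(G1a) flat ⇒ ordinary** for a deformation of a residual representation of ordinary type -/
theorem mltfo_isOrdinaryAt_of_residual [IsNoetherianRing A] (p : ℕ) [hp : Fact p.Prime]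
    (h3 : 3 ≤ p) (hres : Finite (ResidueField A))
    (ρbar : ResidualGaloisRep (ResidueField 𝒪))
    (hbar : (GaloisRepAdic.ofResidualGaloisRep ρbar).IsOrdinaryAt p)
    (ρ : GaloisRepAdic A)
    (hρ : ρ.residual.IsEquiv (ρbar.baseChangeAlong (ResidueField.map (algebraMap 𝒪 A))))
    (hdet : ρ.DetIsCyclotomic p) (hfl : ρ.IsFlatAt p) : ρ.IsOrdinaryAt p := by
  set b : Module.Basis (Fin 2) (ResidueField 𝒪) ρbar.V :=
    Module.finBasisOfFinrankEq (ResidueField 𝒪) ρbar.V ρbar.finrank_eq with hb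
  obtain ⟨r, hr, hlift, e⟩ := exists_strictLift_of_residual_isEquiv ρbar b ρ hρ
  refine mlto_isOrdinaryAt_of_isEquiv (mlto_isEquiv_symm e) ?_
  exact mltfo_isOrdinaryAt_ofMat p h3 hres r hr (detIsCyclotomic_of_isEquiv e hdet)
    (isFlatAt_of_isEquiv e hfl) (fun P hP => mltfo_hbar_of_strictLift p ρbar hbar b r hlift P hP)

end Rep

end Fermat.Agent.MLT
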