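/-
MLT / FlatOrd (helper8), part 1: **an extension of an étale module by a multiplicative one whose
Kummer classes have UNIT generators has a Hopf order** (abstract core of (G2): ordinary + peu ramifié
⇒ flat).

`X` a finite `G_ℚ`-module with open stabilisers, `R` a finite commutative ring, `eC, lC : X →+ R`
jointly injective (`x = eC x · b₁ + lC x · b₀`), the inertia group `I` of `𝔓` acts by
`eC (τ x) = eC x`, `lC (τ x) = eC x · c τ + a · lC x` (`τ ζ = ζ ^ a`, `ζ` a primitive `N`-th root of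
unity, `N R = 0`), and for every additive `λ : R → ℤ/N` the cocycle `τ ↦ ζ ^ λ(c τ)` of `I` has a
Kummer generator which is a UNIT at `𝔓`.  Then `AlphHasOrder 𝔓.p X` (`alph_end` applied to the
indicators of the cosets `eC = e₀` and the functions `x ↦ [eC x = e₀] · y_{e₀,λ} · ζ ^ λ(lC x)`).
-/
import Mathlib
import Fermat.Agent.Lib.Alpha.Hopf.End
import Fermat.Agent.Lib.TW.Flat.BaseRing
import Fermat.Agent.Lib.TW.Kum.Generator
import Fermat.Agent.Lib.MLT.TWO.KnDual

set_option autoImplicit false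
set_option linter.unusedSectionVars false
set_option linter.unusedVariables false
set_option linter.style.haveILetI false

open Fermat.Agent.TW Fermat.Agent.Alpha Fermat.Agent.S05Lib

noncomputable section

namespace Fermat.Agent.MLT

local notation "Qb" => AlgebraicClosure ℚ
local notation "GQ" => (AlgebraicClosure ℚ ≃ₐ[ℚ] AlgebraicClosure ℚ)

section ZPow

variable {N : ℕ} [NeZero N] {ζ : Qb}

theorem mltfo_lfZPow_nsmul (hζ : ζ ^ N = 1) (a : ℕ) (z : ZMod N) :
    lfZPow ζ (a • z) = lfZPow ζ z ^ a := by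
  induction a with
  | zero => rw [zero_smul, lfZPow_zero, pow_zero]
  | succ a ih => rw [succ_nsmul, lfZPow_add hζ, ih, pow_succ]

theorem mltfo_apply_lfZPow (hζ : ζ ^ N = 1) (τ : GQ) {a : ℕ} (hτ : τ ζ = ζ ^ a) (z : ZMod N) :
    τ (lfZPow ζ z) = lfZPow ζ z ^ a := by
  rw [lfZPow, map_pow, hτ, ← pow_mul, ← pow_mul, mul_comm]

end ZPow

section Core

variable (𝔓 : FFPlace) {X : Type} [AddCommGroup X] [Fintype X] [DistribMulAction GQ X]
  {R : Type} [CommRing R] [Finite R] {N : ℕ} [NeZero N] {ζ : Qb}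

open Classical in
/-- the family of functions: indicators of the cosets and twisted characters -/
def mltfoFam (eC lC : X →+ R) (ζ : Qb) (Y : (R →+ ZMod N) → Qb) :
    R ⊕ (R × (R →+ ZMod N)) → X → Qb
  | Sum.inl e₀ => fun x => if eC x = e₀ then 1 else 0
  | Sum.inr (e₀, l) => fun x =>
      if eC x = e₀ then Y (l.comp (AddMonoidHom.mulLeft e₀)) * lfZPow ζ (l (lC x)) else 0

open Classical in
theorem mltfoFam_inl (eC lC : X →+ R) (Y : (R →+ ZMod N) → Qb) (e₀ : R) (x : X) :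
    mltfoFam eC lC ζ Y (Sum.inl e₀) x = if eC x = e₀ then 1 else 0 := rfl

open Classical in
theorem mltfoFam_inr (eC lC : X →+ R) (Y : (R →+ ZMod N) → Qb) (e₀ : R) (l : R →+ ZMod N)
    (x : X) :
    mltfoFam eC lC ζ Y (Sum.inr (e₀, l)) x =
      if eC x = e₀ then Y (l.comp (AddMonoidHom.mulLeft e₀)) * lfZPow ζ (l (lC x)) else 0 := rfl

instance mltfo_finite_hom : Finite (R →+ ZMod N) :=
  Finite.of_injective (fun f => (f : R → ZMod N)) DFunLike.coe_injective

/-- **the abstract core of (G2)** -/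
theorem mltfo_order_of_peu
    (hopen : ∀ x : X, ∃ L : IntermediateField ℚ Qb, FiniteDimensional ℚ L ∧
      ∀ σ : GQ, (∀ a ∈ L, σ a = a) → σ • x = x)
    (hζ : IsPrimitiveRoot ζ N) (hNR : ∀ r : R, N • r = 0)
    (eC lC : X →+ R) (hinj : ∀ x y : X, eC x = eC y → lC x = lC y → x = y)
    (c : GQ → R)
    (hact_e : ∀ τ ∈ 𝔓.I, ∀ x, eC (τ • x) = eC x)
    (hact_l : ∀ τ ∈ 𝔓.I, ∃ a : ℕ, τ ζ = ζ ^ a ∧ ∀ x, lC (τ • x) = eC x * c τ + a • lC x)
    (hpeu : ∀ l : R →+ ZMod N, ∃ y : Qb, 𝔓.v.Is y 0 ∧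
      ∀ τ ∈ 𝔓.I, τ y = lfZPow ζ (l (c τ)) * y) :
    haveI : Fact 𝔓.p.Prime := ⟨𝔓.hp⟩
    AlphHasOrder 𝔓.p X := by
  classical
  haveI : Fact 𝔓.p.Prime := ⟨𝔓.hp⟩
  have hζN : ζ ^ N = 1 := hζ.pow_eq_one
  choose Y hY0 hYI using hpeu
  -- integrality
  have hmemP : ∀ y : Qb, 𝔓.v.Is y 0 → y ∈ 𝔓.P := fun y hy => (𝔓.mem_P_iff y).mpr hy.ge
  have hζint : ∀ z : ZMod N, lfZPow ζ z ∈ 𝔓.P := by
    intro z
    have h1 : ζ ∈ 𝔓.P :=
      (𝔓.mem_P_iff ζ).mpr (𝔓.is_zero_of_pow_eq_one (NeZero.pos N) hζN).ge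
    exact pow_mem h1 _
  have hYinvP : ∀ l, (Y l)⁻¹ ∈ 𝔓.P := by
    intro l
    refine (𝔓.mem_P_iff _).mpr ?_
    have h1 := (hY0 l).inv
    rw [neg_zero] at h1
    exact h1.ge
  refine alph_end 𝔓.p 𝔓.P 𝔓.hP hopen (mltfoFam eC lC ζ Y) ?_ ?_ ?_ ?_
  · -- integrality
    rintro (e₀ | ⟨e₀, l⟩) x
    · rw [mltfoFam_inl]
      split_ifs
      · exact 𝔓.P.one_mem
      · exact 𝔓.P.zero_mem
    · rw [mltfoFam_inr]
      split_ifs
      · exact mul_mem (hmemP _ (hY0 _)) (hζint _)
      · exact 𝔓.P.zero_mem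
  · -- equivariance
    rintro (e₀ | ⟨e₀, l⟩) τ hτ x
    · rw [mltfoFam_inl, mltfoFam_inl, hact_e τ hτ]
      split_ifs
      · rw [map_one]
      · rw [map_zero]
    · obtain ⟨a, hτζ, hl⟩ := hact_l τ hτ
      rw [mltfoFam_inr, mltfoFam_inr, hact_e τ hτ]
      split_ifs with he
      · rw [map_mul, hYI _ τ hτ, mltfo_apply_lfZPow hζN τ hτζ, hl x, he, map_add,
          lfZPow_add hζN, map_nsmul, mltfo_lfZPow_nsmul hζN]
        show _ = lfZPow ζ (l (e₀ * c τ)) * _ * _
        ring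
      · rw [map_zero]
  · -- separation
    intro x y hxy
    by_cases he : eC x = eC y
    · have hl : lC x ≠ lC y := fun hl => hxy (hinj x y he hl)
      have hl' : lC x - lC y ≠ 0 := sub_ne_zero.mpr hl
      obtain ⟨l, hl0⟩ := mlto_dual_separates (N := N) hNR hl'
      refine ⟨Sum.inr (eC x, l), ?_⟩
      rw [mltfoFam_inr, mltfoFam_inr, if_pos rfl, if_pos he.symm]
      intro h
      have hY : Y (l.comp (AddMonoidHom.mulLeft (eC x))) ≠ 0 := (hY0 _).1
      have h2 := mul_left_cancel₀ hY h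
      have h3 := tk_lfZPow_injective hζ h2
      apply hl0
      rw [map_sub, h3, sub_self]
    · refine ⟨Sum.inl (eC x), ?_⟩
      rw [mltfoFam_inl, mltfoFam_inl, if_pos rfl, if_neg (fun h => he h.symm)]
      exact one_ne_zero
  · -- comultiplication
    haveI : Fintype R := Fintype.ofFinite R
    have hadj : ∀ i, mltfoFam eC lC ζ Y i ∈
        Algebra.adjoin ↥𝔓.P (Set.range (mltfoFam eC lC ζ Y)) :=
      fun i => Algebra.subset_adjoin ⟨i, rfl⟩
    let eq := Fintype.equivFin R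
    rintro (e₀ | ⟨e₀, l⟩)
    · refine ⟨Fintype.card R, fun t => mltfoFam eC lC ζ Y (Sum.inl (eq.symm t)),
        fun t => mltfoFam eC lC ζ Y (Sum.inl (e₀ - eq.symm t)), fun t => hadj _, fun t => hadj _,
        fun x y => ?_⟩
      rw [← Equiv.sum_comp eq]
      simp only [Equiv.symm_apply_apply, mltfoFam_inl, map_add]
      rw [Finset.sum_eq_single (eC x)]
      · rw [if_pos rfl, one_mul]
        by_cases h : eC x + eC y = e₀
        · rw [if_pos h, if_pos (by rw [← h]; ring)]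
        · rw [if_neg h, if_neg (fun h' => h (by rw [h']; ring))]
      · intro t _ ht
        rw [if_neg (fun h => ht h.symm), zero_mul]
      · intro h
        exact absurd (Finset.mem_univ _) h
    · -- the twisted characters
      let u : R → Qb := fun t =>
        Y (l.comp (AddMonoidHom.mulLeft e₀)) * (Y (l.comp (AddMonoidHom.mulLeft t)))⁻¹ *
          (Y (l.comp (AddMonoidHom.mulLeft (e₀ - t))))⁻¹
      have huP : ∀ t, u t ∈ 𝔓.P := fun t =>
        mul_mem (mul_mem (hmemP _ (hY0 _)) (hYinvP _)) (hYinvP _)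
      refine ⟨Fintype.card R,
        fun t => (⟨u (eq.symm t), huP _⟩ : ↥𝔓.P) • mltfoFam eC lC ζ Y (Sum.inr (eq.symm t, l)),
        fun t => mltfoFam eC lC ζ Y (Sum.inr (e₀ - eq.symm t, l)),
        fun t => Subalgebra.smul_mem _ (hadj _) _, fun t => hadj _, fun x y => ?_⟩
      rw [← Equiv.sum_comp eq]
      simp only [Equiv.symm_apply_apply, mltfoFam_inr, map_add, Pi.smul_apply]
      rw [Finset.sum_eq_single (eC x)]
      · rw [if_pos rfl]
        by_cases h : eC x + eC y = e₀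
        · have h' : eC y = e₀ - eC x := by rw [← h]; ring
          rw [if_pos h, if_pos h', lfZPow_add hζN]
          have hY1 : Y (l.comp (AddMonoidHom.mulLeft (eC x))) ≠ 0 := (hY0 _).1
          have hY2 : Y (l.comp (AddMonoidHom.mulLeft (e₀ - eC x))) ≠ 0 := (hY0 _).1
          show _ = u (eC x) * _ * _
          simp only [u]
          field_simp
        · rw [if_neg h, if_neg (fun h' => h (by rw [h']; ring)), mul_zero]
      · intro t _ ht
        rw [if_neg (fun h => ht h.symm)]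
        show (⟨u t, huP t⟩ : ↥𝔓.P) • (0 : Qb) * _ = 0
        rw [smul_zero, zero_mul]
      · intro h
        exact absurd (Finset.mem_univ _) h

end Core

end Fermat.Agent.MLT
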