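/-
MLT / FlatOrd (helper8), part 2: **(G2) ordinary + peu ramifié ⇒ flat**.

`ρ : GaloisRepAdic A`, `A` local with finite residue field, `det ρ` cyclotomic, `𝔓 | p`, `b` a basis of
`ρ.V` adapted to the ordinary filtration at `𝔓` on the inertia group (`ρ(ι) b₀ ∈ A b₀`,
`ρ(ι) b₁ ∈ b₁ + A b₀`, i.e. the matrix of `ρ(ι)` is `(* c(ι); 0 1)`).  If for every finite quotient
`A ⧸ J`, `p ^ m ∈ J`, every additive `l : A ⧸ J → ℤ/p^m` and every primitive `p^m`-th root of unity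
`ζ` the cocycle `ι ↦ ζ ^ l(c(ι) mod J)` of the inertia group has a Kummer generator which is a UNIT at
`𝔓` (helper7's literal `MltoPeuAt 𝔓 r` for `r = toMatrix b b ∘ ρ`), then `ρ.IsFlatAt p`.
-/
import Mathlib
import Fermat.Agent.Lib.MLT.FlatOrd.PeuOrder
import Fermat.Agent.Lib.Alpha.S32.Flat
import Fermat.Agent.Lib.T1.Asm.DetTrick

set_option autoImplicit false
set_option linter.unusedSectionVars false
set_option linter.unusedVariables false
set_option linter.style.haveILetI false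
set_option synthInstance.maxHeartbeats 400000

open Fermat.Agent.TW Fermat.Agent.Alpha Fermat.Agent.S05Lib IsLocalRing

noncomputable section

namespace Fermat.Agent.MLT

local notation "Qb" => AlgebraicClosure ℚ
local notation "GQ" => (AlgebraicClosure ℚ ≃ₐ[ℚ] AlgebraicClosure ℚ)

section Ring

variable {A : Type} [CommRing A] [IsLocalRing A]

/-- a finite quotient of a local ring is killed by a power of the maximal ideal -/
theorem mltfo_exists_maxPow_le (J : Ideal A) [Finite (A ⧸ J)] : ∃ n : ℕ, maximalIdeal A ^ n ≤ J := by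
  by_cases hJ : J = ⊤
  · exact ⟨0, by rw [hJ]; exact le_top⟩
  haveI : Nontrivial (A ⧸ J) := Ideal.Quotient.nontrivial_iff.mpr hJ
  obtain ⟨n, hn⟩ := IsArtinianRing.isNilpotent_jacobson_bot (R := A ⧸ J)
  refine ⟨n, ?_⟩
  have h1 : (maximalIdeal A).map (Ideal.Quotient.mk J) ≤ Ideal.jacobson (⊥ : Ideal (A ⧸ J)) := by
    rw [Ideal.map_le_iff_le_comap]
    intro a ha
    rw [Ideal.mem_comap, Ideal.mem_jacobson_bot]
    intro y
    obtain ⟨y', rfl⟩ := Ideal.Quotient.mk_surjective y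
    have h2 : a * y' ∈ maximalIdeal A := Ideal.mul_mem_right _ _ ha
    have h3 : IsUnit (a * y' + 1) := by
      by_contra hnu
      have h4 : a * y' + 1 ∈ maximalIdeal A := (mem_maximalIdeal _).mpr hnu
      have h5 : (1 : A) ∈ maximalIdeal A := by
        have := Ideal.sub_mem _ h4 h2
        rwa [add_sub_cancel_left] at this
      exact (Ideal.ne_top_iff_one _).mp (maximalIdeal.isMaximal A).ne_top h5
    have h6 := h3.map (Ideal.Quotient.mk J)
    rwa [map_add, map_mul, map_one] at h6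
  have h7 : (maximalIdeal A ^ n).map (Ideal.Quotient.mk J) = ⊥ := by
    rw [Ideal.map_pow, eq_bot_iff, ← Ideal.zero_eq_bot, ← hn]
    exact Ideal.pow_right_mono h1 n
  rw [Ideal.map_eq_bot_iff_le_ker, Ideal.mk_ker] at h7
  exact h7

end Ring

section Coord

variable {A : Type} [CommRing A] [IsLocalRing A] (ρ : GaloisRepAdic A)
  (b : Module.Basis (Fin 2) A ρ.V) (J : Ideal A)

/-- the coordinates of `ρ.V ⧸ J ρ.V` with values in `A ⧸ J` -/
def mltfoCoord (i : Fin 2) : (ρ.V ⧸ J • (⊤ : Submodule A ρ.V)) →ₗ[A] (A ⧸ J) :=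
  Submodule.liftQ _ ((Algebra.linearMap A (A ⧸ J)).comp (b.coord i)) (by
    rw [Submodule.smul_le]
    intro a ha v _
    rw [LinearMap.mem_ker, LinearMap.comp_apply, map_smul, smul_eq_mul, Algebra.linearMap_apply,
      map_mul, Ideal.Quotient.algebraMap_eq, Ideal.Quotient.eq_zero_iff_mem.mpr ha, zero_mul])

theorem mltfoCoord_mk (i : Fin 2) (v : ρ.V) :
    mltfoCoord ρ b J i (Submodule.Quotient.mk v) = Ideal.Quotient.mk J (b.repr v i) := rfl

/-- the coordinates are jointly injective -/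
theorem mltfoCoord_injective (x y : ρ.V ⧸ J • (⊤ : Submodule A ρ.V))
    (h1 : mltfoCoord ρ b J 1 x = mltfoCoord ρ b J 1 y)
    (h0 : mltfoCoord ρ b J 0 x = mltfoCoord ρ b J 0 y) : x = y := by
  rw [← sub_eq_zero] at h1 h0 ⊢
  rw [← map_sub] at h1 h0
  obtain ⟨v, hv⟩ := Submodule.Quotient.mk_surjective _ (x - y)
  rw [← hv] at h1 h0 ⊢
  rw [mltfoCoord_mk, Ideal.Quotient.eq_zero_iff_mem] at h1 h0
  rw [Submodule.Quotient.mk_eq_zero, ← b.sum_repr v, Fin.sum_univ_two]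
  exact Submodule.add_mem _ (Submodule.smul_mem_smul h0 Submodule.mem_top)
    (Submodule.smul_mem_smul h1 Submodule.mem_top)

/-- the coordinates of the image of a vector in terms of the matrix -/
theorem mltfo_repr_apply (f : Module.End A ρ.V) (v : ρ.V) (i : Fin 2) :
    b.repr (f v) i = b.repr v 0 * b.repr (f (b 0)) i + b.repr v 1 * b.repr (f (b 1)) i := by
  conv_lhs => rw [← b.sum_repr v, Fin.sum_univ_two]
  simp only [map_add, map_smul, Finsupp.add_apply, Finsupp.smul_apply, smul_eq_mul]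

/-- the determinant of an upper triangular endomorphism with `1` in the corner -/
theorem mltfo_det_eq (f : Module.End A ρ.V) (h0 : b.repr (f (b 0)) 1 = 0)
    (h1 : b.repr (f (b 1)) 1 = 1) : LinearMap.det f = b.repr (f (b 0)) 0 := by
  rw [← LinearMap.det_toMatrix b, Matrix.det_fin_two]
  simp only [LinearMap.toMatrix_apply, h0, h1, mul_one, mul_zero, sub_zero]

end Coord

section Main

variable {A : Type} [CommRing A] [IsLocalRing A]

/-- open stabilisers at a finite level -/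
theorem mltfo_hopen (ρ : GaloisRepAdic A) (J : Ideal A) [Finite (A ⧸ J)]
    (x : ρ.V ⧸ J • (⊤ : Submodule A ρ.V)) :
    letI := alpsLevelAction ρ J
    ∃ L : IntermediateField ℚ Qb, FiniteDimensional ℚ L ∧
      ∀ σ : GQ, (∀ a ∈ L, σ a = a) → σ • x = x := by
  letI := alpsLevelAction ρ J
  obtain ⟨n, hn⟩ := mltfo_exists_maxPow_le J
  obtain ⟨L, hL, hσ⟩ := ρ.isAdicContinuous n
  refine ⟨L, hL, fun σ hfix => ?_⟩
  obtain ⟨v, rfl⟩ := Submodule.Quotient.mk_surjective _ x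
  show ρ.levelAction J σ (Submodule.Quotient.mk v) = _
  rw [alps_levelAction_mk, ← sub_eq_zero, ← Submodule.Quotient.mk_sub,
    Submodule.Quotient.mk_eq_zero]
  exact Submodule.smul_mono_left hn (hσ σ hfix v)

/-- **(G2) ordinary + peu ramifié ⇒ flat**, one level `(m, ζ)` for each finite quotient -/
theorem mltfo_isFlatAt_of_peu_level (ρ : GaloisRepAdic A) (hres : Finite (ResidueField A))
    (𝔓 : FFPlace) (hdet : ρ.DetIsCyclotomic 𝔓.p) (b : Module.Basis (Fin 2) A ρ.V)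
    (hI0 : ∀ ι ∈ 𝔓.I, b.repr (ρ.ρ ι (b 0)) 1 = 0)
    (hI1 : ∀ ι ∈ 𝔓.I, b.repr (ρ.ρ ι (b 1)) 1 = 1)
    (hpeu : ∀ (J : Ideal A), Finite (A ⧸ J) → ∃ (m : ℕ) (ζ : Qb),
      IsPrimitiveRoot ζ (𝔓.p ^ m) ∧ (𝔓.p : A) ^ m ∈ J ∧
      ∀ (l : A ⧸ J →+ ZMod (𝔓.p ^ m)),
        ∃ y : Qb, 𝔓.v.Is y 0 ∧ ∀ ι ∈ 𝔓.I,
          ι y = lfZPow ζ (l (Ideal.Quotient.mk J (b.repr (ρ.ρ ι (b 1)) 0))) * y) :
    ρ.IsFlatAt 𝔓.p := by
  haveI : Fact 𝔓.p.Prime := ⟨𝔓.hp⟩
  refine alps_isFlatAt_of_order 𝔓.p ρ hres fun J hJ => ?_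
  haveI := hJ
  letI := alpsLevelAction ρ J
  haveI : Finite (ρ.V ⧸ (J • (⊤ : Submodule A ρ.V))) := alps_finite_quot ρ J
  haveI : Fintype (ρ.V ⧸ (J • (⊤ : Submodule A ρ.V))) := Fintype.ofFinite _
  -- the level
  obtain ⟨m, ζ, hζ, hpm, hgen⟩ := hpeu J hJ
  haveI : NeZero (𝔓.p ^ m) := ⟨pow_ne_zero _ 𝔓.hp.ne_zero⟩
  have hNR : ∀ r : A ⧸ J, (𝔓.p ^ m) • r = 0 := by
    intro r
    rw [nsmul_eq_mul]
    have h1 : ((𝔓.p ^ m : ℕ) : A ⧸ J) = Ideal.Quotient.mk J ((𝔓.p : A) ^ m) := by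
      push_cast
      rfl
    rw [h1, Ideal.Quotient.eq_zero_iff_mem.mpr hpm, zero_mul]
  refine mltfo_order_of_peu 𝔓 (fun x => mltfo_hopen ρ J x) hζ hNR
    (mltfoCoord ρ b J 1).toAddMonoidHom (mltfoCoord ρ b J 0).toAddMonoidHom
    (fun x y h1 h0 => mltfoCoord_injective ρ b J x y h1 h0)
    (fun τ => Ideal.Quotient.mk J (b.repr (ρ.ρ τ (b 1)) 0)) ?_ ?_ hgen
  · -- the étale coordinate
    intro τ hτ x
    obtain ⟨v, rfl⟩ := Submodule.Quotient.mk_surjective _ x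
    show mltfoCoord ρ b J 1 (ρ.levelAction J τ (Submodule.Quotient.mk v)) =
      mltfoCoord ρ b J 1 (Submodule.Quotient.mk v)
    rw [alps_levelAction_mk, mltfoCoord_mk, mltfoCoord_mk, mltfo_repr_apply ρ b, hI0 τ hτ,
      hI1 τ hτ, mul_zero, zero_add, mul_one]
  · -- the multiplicative coordinate
    intro τ hτ
    obtain ⟨a, ha⟩ := Fermat.Agent.T1.te_exists_exponent τ (𝔓.p ^ m)
    refine ⟨a, ha ζ hζ.pow_eq_one, fun x => ?_⟩
    obtain ⟨v, rfl⟩ := Submodule.Quotient.mk_surjective _ x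
    show mltfoCoord ρ b J 0 (ρ.levelAction J τ (Submodule.Quotient.mk v)) =
      mltfoCoord ρ b J 1 (Submodule.Quotient.mk v) * _ +
        a • mltfoCoord ρ b J 0 (Submodule.Quotient.mk v)
    rw [alps_levelAction_mk, mltfoCoord_mk, mltfoCoord_mk, mltfoCoord_mk, mltfo_repr_apply ρ b,
      map_add, map_mul, map_mul, nsmul_eq_mul]
    have h1 : Ideal.Quotient.mk J (b.repr (ρ.ρ τ (b 0)) 0) = (a : A ⧸ J) := by
      have h2 := hdet.2 m τ a ha
      rw [mltfo_det_eq ρ b _ (hI0 τ hτ) (hI1 τ hτ)] at h2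
      have h3 : b.repr (ρ.ρ τ (b 0)) 0 - (a : A) ∈ J := by
        obtain ⟨c, hc⟩ := Ideal.mem_span_singleton.mp h2
        rw [hc]
        refine Ideal.mul_mem_right _ _ ?_
        push_cast
        exact hpm
      have h4 := Ideal.Quotient.eq_zero_iff_mem.mpr h3
      rw [map_sub, map_natCast, sub_eq_zero] at h4
      exact h4
    rw [h1]
    ring

/-- **(G2) ordinary + peu ramifié ⇒ flat**, unit generators at all levels -/
theorem mltfo_isFlatAt_of_peu (ρ : GaloisRepAdic A) (hres : Finite (ResidueField A))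
    (𝔓 : FFPlace) (hdet : ρ.DetIsCyclotomic 𝔓.p) (b : Module.Basis (Fin 2) A ρ.V)
    (hI0 : ∀ ι ∈ 𝔓.I, b.repr (ρ.ρ ι (b 0)) 1 = 0)
    (hI1 : ∀ ι ∈ 𝔓.I, b.repr (ρ.ρ ι (b 1)) 1 = 1)
    (hpeu : ∀ (J : Ideal A) (m : ℕ), Finite (A ⧸ J) → (𝔓.p : A) ^ m ∈ J →
      ∀ (l : A ⧸ J →+ ZMod (𝔓.p ^ m)) (ζ : Qb), IsPrimitiveRoot ζ (𝔓.p ^ m) →
        ∃ y : Qb, 𝔓.v.Is y 0 ∧ ∀ ι ∈ 𝔓.I,
          ι y = lfZPow ζ (l (Ideal.Quotient.mk J (b.repr (ρ.ρ ι (b 1)) 0))) * y) :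
    ρ.IsFlatAt 𝔓.p := by
  refine mltfo_isFlatAt_of_peu_level ρ hres 𝔓 hdet b hI0 hI1 fun J hJ => ?_
  haveI := hJ
  obtain ⟨m, hm⟩ := mltfo_exists_maxPow_le J
  have hpm : (𝔓.p : A) ^ m ∈ J := hm (Ideal.pow_mem_pow hdet.1 m)
  haveI : NeZero ((𝔓.p ^ m : ℕ) : Qb) := ⟨by exact_mod_cast pow_ne_zero m 𝔓.hp.ne_zero⟩
  obtain ⟨ζ, hζ⟩ := HasEnoughRootsOfUnity.exists_primitiveRoot Qb (𝔓.p ^ m)
  exact ⟨m, ζ, hζ, hpm, fun l => hpeu J m hJ hpm l ζ hζ⟩

end Main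

end Fermat.Agent.MLT
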