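/-
MLT / FlatOrd (helper8), part 8: **unit Kummer generators from a peu ramifiée structure**.

`𝔓` a place over `p`, `ζ` a primitive `p`-th root of unity, `a : G_ℚ → 𝔽_p` with a Kummer generator
`y` on the inertia group (`ι y = ζ ^ (a ι) y`).  If there are a `𝔓`-unit `u`, fixed by the inertia
group of `K0(ζ)`, and a `p`-th root `w` of `u` such that `a` vanishes on the elements of the inertia
group fixing `ζ` and `w` (helper4/helper5's `DlpPeu`), then `a` has a generator which is a `𝔓`-UNIT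
(`mltfo_exists_unit_gen`): on `I' = I ∩ Stab ζ` the character `a` is a multiple `lam κ_w` of the Kummer
character of `w`, so `s = y / w ^ lam ∈ K0(ζ)`, whose value group is `(1/(p-1)) ℤ`, while
`v(y) ∈ (1/p) ℤ`.
-/
import Mathlib
import Fermat.Agent.Lib.TW.Kum.Generator
import Fermat.Agent.Lib.TW.LF.Tame
import Fermat.Agent.Lib.TW.LF.Galois
import Fermat.Agent.Lib.TW.LF.Unr

set_option autoImplicit false
set_option linter.unusedSectionVars false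
set_option linter.unusedVariables false
set_option linter.style.haveILetI false
set_option maxHeartbeats 1000000

open Fermat.Agent.TW Fermat.Agent.S05Lib

noncomputable section

namespace Fermat.Agent.MLT

local notation "Qb" => AlgebraicClosure ℚ
local notation "GQ" => (AlgebraicClosure ℚ ≃ₐ[ℚ] AlgebraicClosure ℚ)

section Kum

variable {p : ℕ} [NeZero p] {ζ : Qb}

/-- `σ x = ζ ^ c x` -/
def MltfoKum (ζ x : Qb) (σ : GQ) (c : ZMod p) : Prop := σ x = lfZPow ζ c * x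

theorem mltfoKum_one (x : Qb) : MltfoKum (p := p) ζ x 1 0 := by
  show (1 : GQ) x = lfZPow ζ (0 : ZMod p) * x
  rw [lfZPow_zero, one_mul]
  rfl

theorem mltfoKum_apply_lfZPow {σ : GQ} (hσ : σ ζ = ζ) (c : ZMod p) : σ (lfZPow ζ c) = lfZPow ζ c := by
  unfold lfZPow
  rw [map_pow, hσ]

theorem mltfoKum_mul (hζp : ζ ^ p = 1) {x : Qb} {σ τ : GQ} (hσ : σ ζ = ζ) {c d : ZMod p}
    (h : MltfoKum ζ x σ c) (h' : MltfoKum ζ x τ d) : MltfoKum ζ x (σ * τ) (c + d) := by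
  show σ (τ x) = _
  rw [h', map_mul, mltfoKum_apply_lfZPow hσ, h, lfZPow_add hζp]
  ring

theorem mltfoKum_inv (hζp : ζ ^ p = 1) {x : Qb} {σ : GQ} (hσ : σ ζ = ζ) {c : ZMod p}
    (h : MltfoKum ζ x σ c) : MltfoKum ζ x σ⁻¹ (-c) := by
  show σ⁻¹ x = _
  have hσ' : σ⁻¹ ζ = ζ := by
    conv_lhs => rw [← hσ]
    exact σ.symm_apply_apply ζ
  apply σ.injective
  have h1 : σ (σ⁻¹ x) = x := σ.apply_symm_apply x
  rw [h1, map_mul, mltfoKum_apply_lfZPow hσ, h, ← mul_assoc, ← lfZPow_add hζp, neg_add_cancel,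
    lfZPow_zero, one_mul]

theorem mltfoKum_pow (hζp : ζ ^ p = 1) {x : Qb} {σ : GQ} (hσ : σ ζ = ζ) {c : ZMod p}
    (h : MltfoKum ζ x σ c) (n : ℕ) : MltfoKum ζ x (σ ^ n) ((n : ZMod p) * c) := by
  induction n with
  | zero =>
    rw [pow_zero, Nat.cast_zero, zero_mul]
    exact mltfoKum_one x
  | succ n ih =>
    rw [pow_succ, Nat.cast_succ, add_mul, one_mul]
    have hσn : (σ ^ n) ζ = ζ := by
      clear ih
      induction n with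
      | zero => rfl
      | succ n ih' =>
        rw [pow_succ]
        show (σ ^ n) (σ ζ) = ζ
        rw [hσ, ih']
    exact mltfoKum_mul hζp hσn ih h

theorem mltfoKum_pow_fix {σ : GQ} (hσ : σ ζ = ζ) (n : ℕ) : (σ ^ n) ζ = ζ := by
  induction n with
  | zero => rfl
  | succ n ih =>
    rw [pow_succ]
    show (σ ^ n) (σ ζ) = ζ
    rw [hσ, ih]

theorem mltfoKum_inv_fix {σ : GQ} (hσ : σ ζ = ζ) : σ⁻¹ ζ = ζ := by
  conv_lhs => rw [← hσ]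
  exact σ.symm_apply_apply ζ

theorem mltfoKum_unique (hζ : IsPrimitiveRoot ζ p) {x : Qb} (hx : x ≠ 0) {σ : GQ} {c d : ZMod p}
    (h : MltfoKum ζ x σ c) (h' : MltfoKum ζ x σ d) : c = d := by
  apply tk_lfZPow_injective hζ
  have h1 : lfZPow ζ c * x = lfZPow ζ d * x := by rw [← h, ← h']
  exact mul_right_cancel₀ hx h1

end Kum

/-- **unit Kummer generators** -/
theorem mltfo_exists_unit_gen (𝔓 : FFPlace) {ζ : Qb} (hζ : IsPrimitiveRoot ζ 𝔓.p)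
    {a : GQ → ZMod 𝔓.p} {y : Qb} (hy : 𝔓.TkGen ζ a y)
    {u w : Qb} (hu : 𝔓.v.Is u 0) (hufix : ∀ σ ∈ 𝔓.I, σ ζ = ζ → σ u = u) (hw : w ^ 𝔓.p = u)
    (hP3 : ∀ σ ∈ 𝔓.I, σ ζ = ζ → σ w = w → a σ = 0) :
    ∃ y', 𝔓.TkGen ζ a y' ∧ 𝔓.v.Is y' 0 := by
  have hp := 𝔓.hp
  have hζp := hζ.pow_eq_one
  have hw0 : w ≠ 0 := by
    intro h
    rw [h, zero_pow hp.ne_zero] at hw
    exact hu.1 hw.symm
  have hy0 : y ≠ 0 := hy.1
  -- the Kummer character of `w` on `I'`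
  have hκ : ∀ σ ∈ 𝔓.I, σ ζ = ζ → ∃ c : ZMod 𝔓.p, MltfoKum ζ w σ c := by
    intro σ hσ hσζ
    have h1 : (σ w / w) ^ 𝔓.p = 1 := by
      rw [div_pow, ← map_pow, hw, hufix σ hσ hσζ, div_self hu.1]
    obtain ⟨c, hc⟩ := lf_exists_eq_lfZPow hζ h1
    exact ⟨c, by
      show σ w = lfZPow ζ c * w
      rw [← hc, div_mul_cancel₀ _ hw0]⟩
  have hya : ∀ σ ∈ 𝔓.I, MltfoKum ζ y σ (a σ) := fun σ hσ => hy.2 σ hσ
  -- cross-multiplication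
  have hcross : ∀ σ₁ ∈ 𝔓.I, σ₁ ζ = ζ → ∀ σ₂ ∈ 𝔓.I, σ₂ ζ = ζ → ∀ c₁ c₂ : ZMod 𝔓.p,
      MltfoKum ζ w σ₁ c₁ → MltfoKum ζ w σ₂ c₂ → c₂ * a σ₁ = c₁ * a σ₂ := by
    intro σ₁ h₁ hζ₁ σ₂ h₂ hζ₂ c₁ c₂ hk₁ hk₂
    set τ : GQ := σ₁ ^ c₂.val * (σ₂ ^ c₁.val)⁻¹ with hτ
    have hτI : τ ∈ 𝔓.I := 𝔓.I.mul_mem (𝔓.I.pow_mem h₁ _) (𝔓.I.inv_mem (𝔓.I.pow_mem h₂ _))
    have hf1 : (σ₁ ^ c₂.val) ζ = ζ := mltfoKum_pow_fix hζ₁ _
    have hf2 : (σ₂ ^ c₁.val)⁻¹ ζ = ζ := mltfoKum_inv_fix (mltfoKum_pow_fix hζ₂ _)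
    have hτζ : τ ζ = ζ := by
      show (σ₁ ^ c₂.val) ((σ₂ ^ c₁.val)⁻¹ ζ) = ζ
      rw [hf2, hf1]
    have hkw : MltfoKum ζ w τ (((c₂.val : ℕ) : ZMod 𝔓.p) * c₁ + -(((c₁.val : ℕ) : ZMod 𝔓.p) * c₂)) :=
      mltfoKum_mul hζp hf1 (mltfoKum_pow hζp hζ₁ hk₁ _)
        (mltfoKum_inv hζp (mltfoKum_pow_fix hζ₂ _) (mltfoKum_pow hζp hζ₂ hk₂ _))
    have hky : MltfoKum ζ y τ
        (((c₂.val : ℕ) : ZMod 𝔓.p) * a σ₁ + -(((c₁.val : ℕ) : ZMod 𝔓.p) * a σ₂)) :=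
      mltfoKum_mul hζp hf1 (mltfoKum_pow hζp hζ₁ (hya σ₁ h₁) _)
        (mltfoKum_inv hζp (mltfoKum_pow_fix hζ₂ _) (mltfoKum_pow hζp hζ₂ (hya σ₂ h₂) _))
    rw [ZMod.natCast_zmod_val, ZMod.natCast_zmod_val] at hkw hky
    have h0 : c₂ * c₁ + -(c₁ * c₂) = 0 := by ring
    rw [h0] at hkw
    have hτw : τ w = w := by
      have : τ w = lfZPow ζ (0 : ZMod 𝔓.p) * w := hkw
      rwa [lfZPow_zero, one_mul] at this
    have haτ : a τ = 0 := hP3 τ hτI hτζ hτw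
    have h1 := mltfoKum_unique hζ hy0 hky (hya τ hτI)
    rw [haτ] at h1
    linear_combination h1
  -- the multiplier
  obtain ⟨lam, hlam⟩ : ∃ lam : ZMod 𝔓.p, ∀ σ ∈ 𝔓.I, σ ζ = ζ → ∀ c : ZMod 𝔓.p,
      MltfoKum ζ w σ c → a σ = lam * c := by
    by_cases hex : ∃ σ₁ ∈ 𝔓.I, σ₁ ζ = ζ ∧ ∃ c₁ : ZMod 𝔓.p, c₁ ≠ 0 ∧ MltfoKum ζ w σ₁ c₁
    · obtain ⟨σ₁, h₁, hζ₁, c₁, hc₁, hk₁⟩ := hex
      refine ⟨a σ₁ * c₁⁻¹, fun σ hσ hσζ c hk => ?_⟩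
      have h1 := hcross σ₁ h₁ hζ₁ σ hσ hσζ c₁ c hk₁ hk
      have h2 : a σ = c₁⁻¹ * (c₁ * a σ) := by rw [← mul_assoc, inv_mul_cancel₀ hc₁, one_mul]
      rw [h2, ← h1]
      ring
    · push Not at hex
      refine ⟨0, fun σ hσ hσζ c hk => ?_⟩
      rw [zero_mul]
      have hc : c = 0 := by
        by_contra hc
        exact hex σ hσ hσζ c hc hk
      rw [hc] at hk
      have hσw : σ w = w := by
        have : σ w = lfZPow ζ (0 : ZMod 𝔓.p) * w := hk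
        rwa [lfZPow_zero, one_mul] at this
      exact hP3 σ hσ hσζ hσw
  -- `s = y / w ^ lam` lies in `K0(ζ)`
  set s : Qb := y / w ^ lam.val with hs
  have hs0 : s ≠ 0 := div_ne_zero hy0 (pow_ne_zero _ hw0)
  have hsfix : ∀ σ ∈ 𝔓.I, σ ζ = ζ → σ s = s := by
    intro σ hσ hσζ
    obtain ⟨c, hk⟩ := hκ σ hσ hσζ
    have h1 : σ y = lfZPow ζ (a σ) * y := hy.2 σ hσ
    have h2 : σ w = lfZPow ζ c * w := hk
    have h3 : lfZPow ζ (a σ) = lfZPow ζ c ^ lam.val := by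
      have : lfZPow ζ c ^ lam.val = lfZPow (lfZPow ζ c) lam := rfl
      rw [this, lfZPow_mul hζp, hlam σ hσ hσζ c hk, mul_comm]
    rw [hs, map_div₀, map_pow, h1, h2, mul_pow, h3,
      mul_div_mul_left _ _ (pow_ne_zero _ (lfZPow_ne_zero hζp c))]
  have hsmem : s ∈ lfAdjoin 𝔓.K0 ζ := by
    rw [FFPlace.lf_mem_iff_forall]
    intro σ hσ
    rw [FFPlace.lf_mem_fixingSubgroup_adjoin_iff, 𝔓.lf_fixingSubgroup_K0] at hσ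
    exact hsfix σ hσ.1 hσ.2
  -- the valuations
  obtain ⟨hunif, he⟩ := FFPlace.lf_unif_adjoin_zeta (𝔓 := 𝔓) hζ
  obtain ⟨k, hk⟩ := hunif.gen s hsmem hs0
  have hwis : 𝔓.v.Is w 0 := by
    refine ⟨hw0, ?_⟩
    have h1 : 𝔓.v.Is (w ^ 𝔓.p) ((𝔓.p : ℚ) * 𝔓.v.ord w) := QVal.Is.pow ⟨hw0, rfl⟩ 𝔓.p
    rw [hw] at h1
    have h2 := hu.unique h1
    have hp0 : (𝔓.p : ℚ) ≠ 0 := by exact_mod_cast hp.ne_zero
    rcases mul_eq_zero.1 h2.symm with h | h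
    · exact absurd h hp0
    · exact h
  have hyis : 𝔓.v.Is y ((k : ℚ) * 𝔓.v.ord (ζ - 1)) := by
    have h1 : y = s * w ^ lam.val := by rw [hs, div_mul_cancel₀ _ (pow_ne_zero _ hw0)]
    rw [h1]
    have h2 := (QVal.Is.mul ⟨hs0, hk⟩ (QVal.Is.pow hwis lam.val))
    refine h2.congr ?_
    ring
  obtain ⟨n, hn⟩ := 𝔓.lf_unr (y ^ 𝔓.p) (hy.pow_mem_K0 hζp) hy.pow_ne_zero
  have hyp : 𝔓.v.Is (y ^ 𝔓.p) ((𝔓.p : ℚ) * ((k : ℚ) * 𝔓.v.ord (ζ - 1))) := QVal.Is.pow hyis 𝔓.p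
  have h1 : (n : ℚ) = (𝔓.p : ℚ) * ((k : ℚ) * 𝔓.v.ord (ζ - 1)) := by
    rw [← hn]; exact hyp.2
  -- `p k = n (p - 1)`
  have h2 : ((𝔓.p : ℤ) * k : ℤ) = n * ((𝔓.p - 1 : ℕ) : ℤ) := by
    have : (((𝔓.p : ℤ) * k : ℤ) : ℚ) = ((n * ((𝔓.p - 1 : ℕ) : ℤ) : ℤ) : ℚ) := by
      push_cast
      rw [h1]
      have he' : 𝔓.v.ord (ζ - 1) * (((𝔓.p - 1 : ℕ) : ℚ)) = 1 := by rw [mul_comm]; exact he
      calc (𝔓.p : ℚ) * (k : ℚ) = (𝔓.p : ℚ) * (k : ℚ) * (𝔓.v.ord (ζ - 1) * (((𝔓.p - 1 : ℕ) : ℚ))) := by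
            rw [he', mul_one]
        _ = (𝔓.p : ℚ) * ((k : ℚ) * 𝔓.v.ord (ζ - 1)) * (((𝔓.p - 1 : ℕ) : ℚ)) := by ring
    exact_mod_cast this
  have hdvd : (𝔓.p : ℤ) ∣ n := by
    have h3 : (𝔓.p : ℤ) ∣ n * ((𝔓.p - 1 : ℕ) : ℤ) := ⟨k, h2.symm⟩
    have hpz : Prime (𝔓.p : ℤ) := Nat.prime_iff_prime_int.mp hp
    rcases hpz.dvd_or_dvd h3 with h | h
    · exact h
    · exfalso
      have h4 : 𝔓.p ∣ 𝔓.p - 1 := by exact_mod_cast h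
      have h5 := Nat.le_of_dvd (Nat.sub_pos_of_lt hp.one_lt) h4
      have := hp.one_lt
      omega
  obtain ⟨n', hn'⟩ := hdvd
  have hyord : 𝔓.v.Is y (n' : ℚ) := by
    refine ⟨hy0, ?_⟩
    have hp0 : (𝔓.p : ℚ) ≠ 0 := by exact_mod_cast hp.ne_zero
    have h3 : (𝔓.p : ℚ) * 𝔓.v.ord y = (𝔓.p : ℚ) * n' := by
      have h4 : 𝔓.v.Is (y ^ 𝔓.p) ((𝔓.p : ℚ) * 𝔓.v.ord y) := QVal.Is.pow ⟨hy0, rfl⟩ 𝔓.p
      rw [← h4.2, hn, hn']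
      push_cast
      ring
    exact mul_left_cancel₀ hp0 h3
  refine ⟨y * (𝔓.p : Qb) ^ (-n'), ⟨mul_ne_zero hy0 (zpow_ne_zero _ 𝔓.p_ne_zero), fun ι hι => ?_⟩, ?_⟩
  · rw [map_mul, map_zpow₀, map_natCast, hy.2 ι hι, mul_assoc]
  · have h3 := QVal.Is.mul hyord (𝔓.lf_is_zpow 𝔓.is_p (-n'))
    refine h3.congr ?_
    push_cast
    ring

end Fermat.Agent.MLT
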