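/-
MLT / FlatOrd (helper8), part 9: **a peu ramifiée residual representation over `𝔽_p` is flat** (after
any extension of scalars to a finite field).

`E` a residual representation over `𝔽_p`, `p = 𝔓.p`, with the structure of helper4/helper5's `DlpPeu`
at the place `𝔓`: a non-zero `e₀ ∈ E` with `(σ - 1) E ⊆ 𝔽_p e₀` and `σ e₀ = ω(σ) e₀` on the inertia
group, a `𝔓`-unit `u` fixed by the inertia group of `K0(ζ)` and a `p`-th root `w` of `u` such that the
elements of the inertia group fixing `ζ` and `w` act trivially on `E`.  Then `E ⊗ k` is flat at `p`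
(`mltfo_isFlatAt_of_dlp`): the cocycle `c` of the extension has a Kummer generator (Hilbert 90), which
can be chosen to be a unit (`mltfo_exists_unit_gen`), and (G2) `mltfo_isFlatAt_of_peu_level` applies
with the level `m = 1`.
-/
import Mathlib
import Fermat.Agent.Lib.MLT.FlatOrd.PeuUnit
import Fermat.Agent.Lib.MLT.FlatOrd.PeuFlat
import Fermat.Agent.Lib.S53.MatInterface

set_option autoImplicit false
set_option linter.unusedSectionVars false
set_option linter.unusedVariables false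
set_option linter.style.haveILetI false
set_option synthInstance.maxHeartbeats 400000
set_option maxHeartbeats 1000000

open Fermat.Agent.TW Fermat.Agent.S05Lib Fermat.Agent.S53Lib IsLocalRing

noncomputable section

namespace Fermat.Agent.MLT

local notation "Qb" => AlgebraicClosure ℚ
local notation "GQ" => (AlgebraicClosure ℚ ≃ₐ[ℚ] AlgebraicClosure ℚ)

/-- the coordinates of a base change of a residual representation -/
theorem mltfo_resBaseChange_repr {k k' : Type} [Field k] [Field k'] (φ : k →+* k')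
    (E : ResidualGaloisRep k) (b : Module.Basis (Fin 2) k E.V) (σ : GQ) (i j : Fin 2) :
    (resBaseChangeBasis φ E b).repr ((E.baseChangeAlong φ).ρ σ (resBaseChangeBasis φ E b j)) i =
      φ (b.repr (E.ρ σ (b j)) i) := by
  have h1 := congrFun (congrFun (toMatrix_resBaseChange φ E b σ) i) j
  rw [LinearMap.toMatrix_apply, Matrix.map_apply, LinearMap.toMatrix_apply] at h1
  exact h1

/-- **a peu ramifiée residual representation is flat** -/
theorem mltfo_isFlatAt_of_dlp (𝔓 : FFPlace) (E : ResidualGaloisRep (ZMod 𝔓.p)) {k : Type} [Field k]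
    [Finite k] (φ : ZMod 𝔓.p →+* k)
    (hdet : (GaloisRepAdic.ofResidualGaloisRep (E.baseChangeAlong φ)).DetIsCyclotomic 𝔓.p)
    {ζ : Qb} (hζ : IsPrimitiveRoot ζ 𝔓.p) (e₀ : E.V) (he₀ : e₀ ≠ 0)
    (hP1 : ∀ σ ∈ 𝔓.I, ∀ x : E.V, ∃ t : ZMod 𝔓.p, E.ρ σ x - x = t • e₀)
    (hP2 : ∀ σ ∈ 𝔓.I, ∀ n : ℕ, σ ζ = ζ ^ n → E.ρ σ e₀ = (n : ZMod 𝔓.p) • e₀)
    {u w : Qb} (hu : 𝔓.v.Is u 0) (hufix : ∀ σ ∈ 𝔓.I, σ ζ = ζ → σ u = u) (hw : w ^ 𝔓.p = u)
    (hP3 : ∀ σ ∈ 𝔓.I, σ ζ = ζ → σ w = w → E.ρ σ = 1) :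
    (GaloisRepAdic.ofResidualGaloisRep (E.baseChangeAlong φ)).IsFlatAt 𝔓.p := by
  classical
  have hp := 𝔓.hp
  have hζp := hζ.pow_eq_one
  -- the cyclotomic character
  have hωex : ∀ σ : GQ, ∃ c : ZMod 𝔓.p, σ ζ = lfZPow ζ c := fun σ =>
    lf_exists_eq_lfZPow hζ (by rw [← map_pow, hζp, map_one])
  choose ω hω using hωex
  have hP2' : ∀ σ ∈ 𝔓.I, E.ρ σ e₀ = ω σ • e₀ := by
    intro σ hσ
    have h1 := hP2 σ hσ (ω σ).val (hω σ)
    rwa [ZMod.natCast_zmod_val] at h1
  -- the basis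
  obtain ⟨e₁, he₁⟩ : ∃ e₁ : E.V, e₁ ∉ Submodule.span (ZMod 𝔓.p) {e₀} := by
    by_contra hcon
    push Not at hcon
    have htop : Submodule.span (ZMod 𝔓.p) {e₀} = ⊤ := Submodule.eq_top_iff'.2 hcon
    have h1 : Module.finrank (ZMod 𝔓.p) (Submodule.span (ZMod 𝔓.p) {e₀}) = 1 :=
      finrank_span_singleton he₀
    rw [htop, finrank_top, E.finrank_eq] at h1
    omega
  have hli : LinearIndependent (ZMod 𝔓.p) ![e₀, e₁] := by
    rw [LinearIndependent.pair_iff]
    intro s t hst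
    have ht : t = 0 := by
      by_contra ht
      apply he₁
      rw [Submodule.mem_span_singleton]
      refine ⟨-(t⁻¹ * s), ?_⟩
      have h1 : t • e₁ = -(s • e₀) := eq_neg_of_add_eq_zero_right hst
      calc -(t⁻¹ * s) • e₀ = t⁻¹ • (-(s • e₀)) := by rw [neg_smul, mul_smul, smul_neg]
        _ = t⁻¹ • (t • e₁) := by rw [h1]
        _ = e₁ := by rw [smul_smul, inv_mul_cancel₀ ht, one_smul]
    refine ⟨?_, ht⟩
    rw [ht, zero_smul, add_zero] at hst
    exact (smul_eq_zero.1 hst).resolve_right he₀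
  let b : Module.Basis (Fin 2) (ZMod 𝔓.p) E.V :=
    basisOfLinearIndependentOfCardEqFinrank hli (by rw [Fintype.card_fin, E.finrank_eq])
  have hb : ⇑b = ![e₀, e₁] := coe_basisOfLinearIndependentOfCardEqFinrank hli _
  have hb0 : b 0 = e₀ := by rw [hb]; rfl
  have hb1 : b 1 = e₁ := by rw [hb]; rfl
  -- the cocycle
  set c : GQ → ZMod 𝔓.p := fun σ => b.repr (E.ρ σ (b 1)) 0 with hc
  have hact1 : ∀ σ ∈ 𝔓.I, E.ρ σ (b 1) = b 1 + c σ • b 0 := by
    intro σ hσ
    obtain ⟨t, ht⟩ := hP1 σ hσ (b 1)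
    have h1 : E.ρ σ (b 1) = b 1 + t • b 0 := by
      rw [hb0, ← ht]; abel
    have h2 : c σ = t := by
      show b.repr (E.ρ σ (b 1)) 0 = t
      rw [h1, map_add, map_smul, Module.Basis.repr_self, Module.Basis.repr_self,
        Finsupp.add_apply, Finsupp.smul_apply, Finsupp.single_apply, Finsupp.single_apply,
        if_neg (by decide), if_pos rfl, zero_add, smul_eq_mul, mul_one]
    rw [h2]; exact h1
  have hact0 : ∀ σ ∈ 𝔓.I, E.ρ σ (b 0) = ω σ • b 0 := by
    intro σ hσ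
    rw [hb0]; exact hP2' σ hσ
  have hb0ne : b 0 ≠ 0 := b.ne_zero 0
  have hcoc : ∀ σ ∈ 𝔓.I, ∀ τ ∈ 𝔓.I, c (σ * τ) = c σ + ω σ * c τ := by
    intro σ hσ τ hτ
    have h1 : E.ρ (σ * τ) (b 1) = b 1 + (c σ + ω σ * c τ) • b 0 := by
      rw [map_mul, Module.End.mul_apply, hact1 τ hτ, map_add, map_smul, hact1 σ hσ, hact0 σ hσ,
        smul_smul, add_smul, add_assoc, mul_comm]
    have h2 := hact1 (σ * τ) (𝔓.I.mul_mem hσ hτ)
    rw [h1] at h2
    have h3 : (c σ + ω σ * c τ - c (σ * τ)) • b 0 = 0 := by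
      rw [sub_smul, sub_eq_zero]
      exact add_left_cancel h2
    have h4 := (smul_eq_zero.1 h3).resolve_right hb0ne
    exact (sub_eq_zero.1 h4).symm
  obtain ⟨F, hF, hFρ⟩ := E.factorsThroughFiniteLevel
  have hlev : ∀ σ ∈ 𝔓.I, ∀ τ ∈ 𝔓.I, (∀ x ∈ F, σ x = τ x) → c σ = c τ := by
    intro σ _ τ _ hστ
    have h1 : E.ρ (τ⁻¹ * σ) = 1 := by
      apply hFρ
      intro x hx
      show τ⁻¹ (σ x) = x
      rw [hστ x hx]
      exact τ.symm_apply_apply x
    have h2 : E.ρ σ = E.ρ τ := by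
      have h3 : σ = τ * (τ⁻¹ * σ) := by group
      rw [h3, map_mul, h1, mul_one]
    show b.repr (E.ρ σ (b 1)) 0 = b.repr (E.ρ τ (b 1)) 0
    rw [h2]
  obtain ⟨y, hy⟩ := 𝔓.tkGen_exists hζ ω (fun σ _ => hω σ) c hcoc F hF hlev
  obtain ⟨y', hy', hy'0⟩ := mltfo_exists_unit_gen 𝔓 hζ hy hu hufix hw (fun σ hσ h1 h2 => by
    show b.repr (E.ρ σ (b 1)) 0 = 0
    rw [hP3 σ hσ h1 h2, Module.End.one_apply, Module.Basis.repr_self, Finsupp.single_apply,
      if_neg (by decide)])
  -- the base change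
  have hres : Finite (ResidueField k) := Finite.of_surjective (residue k) residue_surjective
  refine mltfo_isFlatAt_of_peu_level (GaloisRepAdic.ofResidualGaloisRep (E.baseChangeAlong φ)) hres
    𝔓 hdet (resBaseChangeBasis φ E b) ?_ ?_ ?_
  · intro τ hτ
    have h1 := mltfo_resBaseChange_repr φ E b τ 1 0
    refine h1.trans ?_
    rw [hact0 τ hτ, map_smul, Module.Basis.repr_self, Finsupp.smul_apply, Finsupp.single_apply,
      if_neg (by decide), smul_zero, map_zero]
  · intro τ hτ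
    have h1 := mltfo_resBaseChange_repr φ E b τ 1 1
    refine h1.trans ?_
    rw [hact1 τ hτ, map_add, map_smul, Module.Basis.repr_self, Module.Basis.repr_self,
      Finsupp.add_apply, Finsupp.smul_apply, Finsupp.single_apply, Finsupp.single_apply,
      if_pos rfl, if_neg (by decide), smul_zero, add_zero, map_one]
  · intro J hJ
    have hζ1 : IsPrimitiveRoot ζ (𝔓.p ^ 1) := by rw [pow_one]; exact hζ
    have hζp1 : ζ ^ (𝔓.p ^ 1) = 1 := hζ1.pow_eq_one
    refine ⟨1, ζ, hζ1, ?_, fun l => ?_⟩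
    · have h0 : ((𝔓.p : ℕ) : k) = 0 := by
        have h1 : ((𝔓.p : ℕ) : k) = φ ((𝔓.p : ℕ) : ZMod 𝔓.p) := (map_natCast φ _).symm
        rw [h1, ZMod.natCast_self, map_zero]
      rw [pow_one, h0]
      exact J.zero_mem
    · set lam0 : ZMod (𝔓.p ^ 1) := l (Ideal.Quotient.mk J 1) with hlam0
      refine ⟨y' ^ lam0.val, ?_, fun τ hτ => ?_⟩
      · have := QVal.Is.pow hy'0 lam0.val
        refine this.congr ?_
        ring
      · have h1 : (resBaseChangeBasis φ E b).repr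
            ((GaloisRepAdic.ofResidualGaloisRep (E.baseChangeAlong φ)).ρ τ
              (resBaseChangeBasis φ E b 1)) 0 = φ (c τ) := mltfo_resBaseChange_repr φ E b τ 0 1
        refine Eq.trans ?_ (congrArg
          (fun z => lfZPow ζ (l (Ideal.Quotient.mk J z)) * y' ^ lam0.val) h1).symm
        show τ (y' ^ lam0.val) = lfZPow ζ (l (Ideal.Quotient.mk J (φ (c τ)))) * y' ^ lam0.val
        have h2 : φ (c τ) = (c τ).val • (1 : k) := by
          conv_lhs => rw [← ZMod.natCast_zmod_val (c τ)]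
          rw [map_natCast, nsmul_eq_mul, mul_one]
        have h3 : l (Ideal.Quotient.mk J (φ (c τ))) = (c τ).val • lam0 := by
          rw [h2, map_nsmul, map_nsmul]
        rw [h3, map_pow, hy'.2 τ hτ, mul_pow]
        congr 1
        -- the exponents
        have h4 : (c τ).val • lam0 = (((c τ).val * lam0.val : ℕ) : ZMod (𝔓.p ^ 1)) := by
          rw [nsmul_eq_mul, Nat.cast_mul, ZMod.natCast_zmod_val]
        show (ζ ^ (c τ).val) ^ lam0.val = ζ ^ ((c τ).val • lam0).val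
        rw [h4, ZMod.val_natCast, ← pow_mul, ← pow_eq_pow_mod _ hζp1]

end Fermat.Agent.MLT
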