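/-
MLT / FlatOrd (helper8), part 10: **`W[p] ⊗ k` is flat at `p` for `W` multiplicative at `p` with
`p ∣ ord_p Δ`** (the second consumer of (G2): the FLAT base datum of case (C')).

helper5's `mltpg_peu_mult` gives the peu ramifiée structure `DlpPeu (s58E W) 𝔓 p ζ` on `W[p]`;
`mltfo_isFlatAt_of_dlp` (unit Kummer generators + (G2)) turns it into `IsFlatAt p`.
-/
import Mathlib
import Fermat.Agent.Lib.MLT.FlatOrd.PeuRes
import Fermat.Agent.Lib.MLT.AtPG.PeuMult
import Fermat.Agent.Lib.MLT.Res.Frob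
import Fermat.Agent.Lib.TW.Flat.Place

set_option autoImplicit false
set_option linter.unusedSectionVars false
set_option linter.unusedVariables false
set_option linter.style.haveILetI false
set_option synthInstance.maxHeartbeats 400000
set_option maxHeartbeats 1000000

open Fermat.Agent.TW Fermat.Agent.S05Lib Fermat.Agent.S53Lib Fermat.Agent.S58 Fermat.Agent.Delta
  IsLocalRing WeierstrassCurve
open scoped WeierstrassCurve.Affine

noncomputable section

namespace Fermat.Agent.MLT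

local notation "Qb" => AlgebraicClosure ℚ
local notation "GQ" => (AlgebraicClosure ℚ ≃ₐ[ℚ] AlgebraicClosure ℚ)

/-- **multiplicative reduction at `p` with `p ∣ ord_p Δ` ⇒ `W[p] ⊗ k` is flat at `p`** -/
theorem mltfo_isFlatAt_mult (p : ℕ) [hp : Fact p.Prime] (hp2 : p ≠ 2) (W : WeierstrassCurve ℤ)
    (hΔ : W.Δ ≠ 0) (hpΔ : (p : ℤ) ∣ W.Δ) (hc₄ : ¬ (p : ℤ) ∣ W.c₄)
    (hpeu : (p : ℤ) ∣ padicValRat p (W.map (Int.castRingHom ℚ)).Δ)
    {k : Type} [Field k] [Finite k] (φ : ZMod p →+* k) :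
    (GaloisRepAdic.ofResidualGaloisRep ((mltrE W p hΔ).baseChangeAlong φ)).IsFlatAt p := by
  classical
  haveI : NeZero p := ⟨hp.out.ne_zero⟩
  obtain ⟨ζ, hζ⟩ := HasEnoughRootsOfUnity.exists_primitiveRoot Qb p
  obtain ⟨L₁, u, w, hcard, htor, hP1, hP2, hu, hufix, hw, hP3⟩ :=
    mltpg_peu_mult W hΔ (ffPlaceAt p) hp2 hpΔ hc₄ hpeu hζ
  -- a generator of `L₁`
  haveI : Finite L₁ := Nat.finite_of_card_ne_zero (by rw [hcard]; exact hp.out.ne_zero)
  haveI : Nontrivial L₁ := Finite.one_lt_card_iff_nontrivial.1 (by rw [hcard]; exact hp.out.one_lt)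
  obtain ⟨g, hg⟩ : ∃ g : L₁, g ≠ 0 := exists_ne 0
  have hgen : AddSubgroup.zmultiples g = ⊤ := zmultiples_eq_top_of_prime_card hcard hg
  have hL₁ : ∀ l ∈ L₁, ∃ n : ℤ, l = n • (g : ((s58E W)⁄Qb).Point) := by
    intro l hl
    have h1 : (⟨l, hl⟩ : L₁) ∈ AddSubgroup.zmultiples g := by rw [hgen]; trivial
    obtain ⟨n, hn⟩ := AddSubgroup.mem_zmultiples_iff.1 h1
    refine ⟨n, ?_⟩
    have h2 := congrArg (fun z : L₁ => (z : ((s58E W)⁄Qb).Point)) hn
    simp only [AddSubgroup.coe_zsmul] at h2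
    exact h2.symm
  have hmem : ∀ x : ((s58E W)⁄Qb).Point, p • x = 0 → x ∈ S58Tors W p := by
    intro x hx
    rw [Submodule.mem_torsionBy_iff, natCast_zsmul]
    exact hx
  have htors : ∀ x : S58Tors W p, p • (x : ((s58E W)⁄Qb).Point) = 0 := by
    intro x
    have := (Submodule.mem_torsionBy_iff _ _).mp x.2
    rwa [natCast_zsmul] at this
  set e₀ : S58Tors W p := ⟨(g : ((s58E W)⁄Qb).Point), hmem _ (htor g g.2)⟩ with he₀
  have he₀0 : e₀ ≠ 0 := by
    intro h
    apply hg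
    have h1 := congrArg (fun z : S58Tors W p => (z : ((s58E W)⁄Qb).Point)) h
    exact Subtype.ext h1
  letI : Algebra (ZMod p) k := φ.toAlgebra
  have hdet : (GaloisRepAdic.ofResidualGaloisRep ((mltrE W p hΔ).baseChangeAlong φ)).DetIsCyclotomic
      p := mltr_hdet W p k hΔ
  refine mltfo_isFlatAt_of_dlp (ffPlaceAt p) (mltrE W p hΔ) φ hdet hζ e₀ he₀0 ?_ ?_ hu hufix hw ?_
  · intro σ hσ (x : S58Tors W p)
    obtain ⟨n, hn⟩ := hL₁ _ (hP1 σ hσ (x : ((s58E W)⁄Qb).Point) (htors x))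
    refine ⟨(n : ZMod p), ?_⟩
    refine Eq.trans ?_ (Int.cast_smul_eq_zsmul (ZMod p) n e₀).symm
    apply Subtype.ext
    show σ • (x : ((s58E W)⁄Qb).Point) - x = ((n • e₀ : S58Tors W p) : ((s58E W)⁄Qb).Point)
    rw [hn, Submodule.coe_smul_of_tower]
  · intro σ hσ n hn
    refine Eq.trans ?_ (Nat.cast_smul_eq_nsmul (ZMod p) n e₀).symm
    apply Subtype.ext
    show σ • (g : ((s58E W)⁄Qb).Point) = ((n • e₀ : S58Tors W p) : ((s58E W)⁄Qb).Point)
    rw [hP2 σ hσ n hn g g.2, Submodule.coe_smul_of_tower]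
  · intro σ hσ h1 h2
    apply LinearMap.ext
    intro (x : S58Tors W p)
    apply Subtype.ext
    show σ • (x : ((s58E W)⁄Qb).Point) = x
    exact hP3 σ hσ h1 h2 x (htors x)

/-- **the unfolded literal of lead's `MltIResFlat p`** (m60), `p` odd: for a semistable `W`,
multiplicative at `p` with `p ∣ ord_p Δ`, the representation `mltrRep W p k hΔ = W[p] ⊗ k` is flat at
`p`, for every finite field `k` of characteristic `p` -/
theorem mltfo_resFlat (p : ℕ) [Fact p.Prime] (hp2 : p ≠ 2) (W : WeierstrassCurve ℤ) (hΔ : W.Δ ≠ 0)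
    (hss : W.IsSemistableModel) (hbad : (p : ℤ) ∣ W.Δ)
    (hfin : (p : ℤ) ∣ padicValRat p (W.map (Int.castRingHom ℚ)).Δ)
    (k : Type) [Field k] [Finite k] [inst : Algebra (ZMod p) k] :
    (GaloisRepAdic.ofResidualGaloisRep (mltrRep W p k hΔ)).IsFlatAt p := by
  have h := mltfo_isFlatAt_mult p hp2 W hΔ hbad (hss p Fact.out hbad) hfin (algebraMap (ZMod p) k)
  have e : (algebraMap (ZMod p) k).toAlgebra = inst := Algebra.algebra_ext _ _ (fun _ => rfl)
  have h' : (GaloisRepAdic.ofResidualGaloisRep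
      (@ResidualGaloisRep.baseChange (ZMod p) _ k _ (algebraMap (ZMod p) k).toAlgebra
        (mltrE W p hΔ))).IsFlatAt p := h
  rw [e] at h'
  exact h'

end Fermat.Agent.MLT
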