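/-
MLT / FlatOrd (helper8), part 3: **(G2) in the shape of helper7's `hG2`**: a representation with
cyclotomic determinant which is peu ramifié in the sense of `MltoPeu 𝔓 ρ` (`TWO/KnGrowth.lean`: some
matrix form in ordinary form at `𝔓`, ONE level `(m, ζ)` with `p ^ m = 0`, unit Kummer generators for
every ideal `I` and every additive `l : A ⧸ I → ℤ/p^m`) is flat at `p`.
-/
import Mathlib
import Fermat.Agent.Lib.MLT.FlatOrd.PeuFlat
import Fermat.Agent.Lib.MLT.TWO.KnGrowth

set_option autoImplicit false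
set_option linter.unusedSectionVars false
set_option linter.unusedVariables false
set_option linter.style.haveILetI false
set_option synthInstance.maxHeartbeats 400000

open Fermat.Agent.TW Fermat.Agent.Alpha Fermat.Agent.S05Lib Fermat.Agent.S53Lib IsLocalRing

noncomputable section

namespace Fermat.Agent.MLT

local notation "Qb" => AlgebraicClosure ℚ
local notation "GQ" => (AlgebraicClosure ℚ ≃ₐ[ℚ] AlgebraicClosure ℚ)

variable {A : Type} [CommRing A] [IsLocalRing A]

/-- the coordinates of `ofMat r hr` in the standard basis -/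
theorem mltfo_ofMat_repr (r : GQ →* Matrix (Fin 2) (Fin 2) A) (hr : MatCts A r) (σ : GQ)
    (i j : Fin 2) :
    (ofMatBasis r hr).repr ((ofMat r hr).ρ σ (ofMatBasis r hr j)) i = r σ i j := by
  have h1 := congrArg (fun f : GQ →* Matrix (Fin 2) (Fin 2) A => f σ i j) (toMatrixRep_ofMat r hr)
  simp only [toMatrixRep_apply, LinearMap.toMatrix_apply] at h1
  exact h1

/-- **(G2) for `ofMat`** -/
theorem mltfo_isFlatAt_ofMat (𝔓 : FFPlace) (hres : Finite (ResidueField A))
    (r : GQ →* Matrix (Fin 2) (Fin 2) A) (hr : MatCts A r)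
    (hdet : (ofMat r hr).DetIsCyclotomic 𝔓.p)
    (hform : MltoOrdForm 𝔓 (fun σ => r σ)) (hpeu : MltoPeuLevel 𝔓 (fun σ => r σ)) :
    (ofMat r hr).IsFlatAt 𝔓.p := by
  obtain ⟨m, ζ, hζ, hpm, hgen⟩ := hpeu
  refine mltfo_isFlatAt_of_peu_level (ofMat r hr) hres 𝔓 hdet (ofMatBasis r hr) ?_ ?_ ?_
  · intro ι hι
    rw [mltfo_ofMat_repr]
    exact hform.tri ι (𝔓.I_le_D hι)
  · intro ι hι
    rw [mltfo_ofMat_repr]
    exact hform.uni ι hι
  · intro J _
    refine ⟨m, ζ, hζ, by rw [hpm]; exact J.zero_mem, fun l => ?_⟩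
    obtain ⟨y, hy, hy0⟩ := hgen J l
    refine ⟨y, hy0, fun ι hι => ?_⟩
    rw [mltfo_ofMat_repr]
    exact hy.2 ι hι

/-- **(G2) in the shape of `hG2`**: cyclotomic determinant + `MltoPeu` ⇒ flat -/
theorem mltfo_isFlatAt_of_mltoPeu (𝔓 : FFPlace) (hres : Finite (ResidueField A))
    (ρ : GaloisRepAdic A) (hdet : ρ.DetIsCyclotomic 𝔓.p) (h : MltoPeu 𝔓 ρ) :
    ρ.IsFlatAt 𝔓.p := by
  obtain ⟨r, hr, e, hform, hpeu⟩ := h
  exact isFlatAt_of_isEquiv (mlto_isEquiv_symm e)
    (mltfo_isFlatAt_ofMat 𝔓 hres r hr (detIsCyclotomic_of_isEquiv e hdet) hform hpeu)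

end Fermat.Agent.MLT
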